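import Fermat.Agent.ES.Forms.Classes
import Mathlib.GroupTheory.Transfer
import Mathlib.LinearAlgebra.Matrix.GeneralLinearGroup.Card
import Mathlib.FieldTheory.Finite.Basic

/-!
# Descending a character from `Γ₀(L) ∩ Γ(r)` to `Γ₀(L)`

For a prime `r ≡ 2 (mod 9)` prime to `L`, the group `Γ₀(L)` maps onto `SL₂(𝔽_r)`, whose Sylow
three-subgroup has order three and is inverted by an element of the group. So invariant characters
of exponent three extend, and a parabolic extension is unique.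
-/

set_option autoImplicit false

noncomputable section

open CongruenceSubgroup ModularGroup
open scoped MatrixGroups Matrix

namespace FermatAgent.BAD.AtP.Drop

section Extend

variable {G : Type*} [Group G] (K : Subgroup G) [K.Normal] [K.FiniteIndex] {A : Type*} [CommGroup A]

/-- An invariant character of exponent three extends when a Sylow three-subgroup of the quotient
has order three and is inverted. -/
theorem exists_extend_cube (ψ : K →* A) (hexp : ∀ k, ψ k ^ 3 = 1)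
    (hinv : ∀ (g : G) (k : K) (h : g * k * g⁻¹ ∈ K), ψ ⟨_, h⟩ = ψ k)
    (h9 : ¬ 9 ∣ K.index) (x : G) (hx : x ^ 3 ∈ K) (hx1 : x ∉ K) (w : G)
    (hw : w * x * w⁻¹ * x ∈ K) : ∃ θ : G →* A, θ ^ 3 = 1 ∧ ∀ k : K, θ k = ψ k := by
  classical
  have hK : K.Normal := inferInstance
  have hconj : ∀ (g : G) (k : K), g * k * g⁻¹ ∈ K := fun g k => hK.conj_mem _ k.2 g
  -- the value at `x ^ 3`
  have hx3 : ψ ⟨_, hx⟩ = 1 := by
    set a : K := ⟨_, hx⟩
    set k0 : K := ⟨_, hw⟩
    have h1 : (w * x * w⁻¹) = k0 * x⁻¹ := by simp [k0]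
    have e : (w * (a : G) * w⁻¹) = k0 * (x⁻¹ * k0 * x⁻¹⁻¹) *
        (x⁻¹ ^ 2 * k0 * (x⁻¹ ^ 2)⁻¹) * a⁻¹ := by
      have h2 : w * (a : G) * w⁻¹ = (w * x * w⁻¹) * (w * x * w⁻¹) * (w * x * w⁻¹) := by
        simp [a, pow_three, mul_assoc]
      rw [h2, h1]
      simp [a, pow_three, pow_two, mul_assoc]
    have h3 := hinv w a (hconj w a)
    rw [show (⟨_, hconj w a⟩ : K) = k0 * ⟨_, hconj x⁻¹ k0⟩ * ⟨_, hconj (x⁻¹ ^ 2) k0⟩ * a⁻¹ from
      Subtype.ext e, map_mul, map_mul, map_mul, hinv, hinv, map_inv, mul_assoc (ψ k0), ← pow_two,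
      ← pow_succ', hexp, one_mul] at h3
    have h4 : ψ a * ψ a = 1 := by nth_rewrite 1 [← h3]; exact inv_mul_cancel _
    calc ψ a = ψ a ^ 3 * (ψ a * ψ a)⁻¹ := by group
      _ = 1 := by rw [hexp, h4, inv_one, one_mul]
  -- powers of `x` in `K`
  have hdvd : ∀ n : ℤ, x ^ n ∈ K → (3 : ℤ) ∣ n := fun n hn => by
    by_contra h
    obtain ⟨u, v, huv⟩ : IsCoprime (3 : ℤ) n := (Int.prime_three.coprime_iff_not_dvd).2 h
    refine hx1 ?_
    rw [← zpow_one x, ← huv, zpow_add, zpow_mul', zpow_mul']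
    exact mul_mem (zpow_mem (by exact_mod_cast hx) u) (zpow_mem hn v)
  have hcube : ∀ (n : ℤ) (h : x ^ n ∈ K), ψ ⟨_, h⟩ = 1 := fun n h => by
    obtain ⟨m, rfl⟩ := hdvd n h
    rw [show (⟨_, h⟩ : K) = ⟨_, hx⟩ ^ m from Subtype.ext (by
      simp only [SubgroupClass.coe_zpow, zpow_mul]; norm_cast), map_zpow, hx3, one_zpow]
  let H : Subgroup G :=
    { carrier := {g | ∃ i : ℤ, g * x ^ i ∈ K}
      one_mem' := ⟨0, by simp⟩
      mul_mem' := by
        rintro g h ⟨i, hi⟩ ⟨j, hj⟩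
        refine ⟨j + i, ?_⟩
        have := mul_mem hi (hK.conj_mem _ hj (x ^ i)⁻¹)
        simpa [zpow_add, mul_assoc] using this
      inv_mem' := by
        rintro g ⟨i, hi⟩
        refine ⟨-i, ?_⟩
        have := hK.conj_mem _ (inv_mem hi) (x ^ i)
        simpa [zpow_neg, mul_assoc] using this }
  have hwd : ∀ (g : G) (i j : ℤ) (hi : g * x ^ i ∈ K) (hj : g * x ^ j ∈ K),
      ψ ⟨_, hi⟩ = ψ ⟨_, hj⟩ := fun g i j hi hj => by
    have hij : x ^ (j - i) ∈ K := by
      have := mul_mem (inv_mem hi) hj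
      simpa [zpow_sub, mul_assoc, ← zpow_neg, ← zpow_add, neg_add_eq_sub] using this
    rw [show (⟨_, hj⟩ : K) = ⟨_, hi⟩ * ⟨_, hij⟩ from Subtype.ext (by
      simp [mul_assoc, ← zpow_add]), map_mul, hcube _ hij, mul_one]
  choose i hi using fun g : H => g.2
  let ψ' : H →* A := MonoidHom.mk' (fun g => ψ ⟨_, hi g⟩) fun g h => by
    have h0 : ((g * h : H) : G) * x ^ (i h + i g) = (g : G) * x ^ i g *
        ((x ^ i g)⁻¹ * (h * x ^ i h) * (x ^ i g)⁻¹⁻¹) := by
      simp [zpow_add, mul_assoc]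
    have hm : ((g * h : H) : G) * x ^ (i h + i g) ∈ K :=
      h0 ▸ mul_mem (hi g) (hK.conj_mem _ (hi h) (x ^ i g)⁻¹)
    rw [hwd _ _ _ (hi (g * h)) hm, show (⟨_, hm⟩ : K) = ⟨_, hi g⟩ *
      ⟨_, hK.conj_mem _ (hi h) (x ^ i g)⁻¹⟩ from Subtype.ext h0, map_mul]
    exact congrArg (ψ ⟨_, hi g⟩ * ·) (hinv _ ⟨_, hi h⟩ _)
  have hKH : K ≤ H := fun g hg => ⟨0, by simpa using hg⟩
  have : H.FiniteIndex := Subgroup.finiteIndex_of_le hKH
  have hxH : x ∈ H := ⟨-1, by simp⟩
  have h3H : 3 ∣ K.relIndex H := by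
    let y : H ⧸ K.subgroupOf H := QuotientGroup.mk' _ ⟨x, hxH⟩
    have := Fact.mk Nat.prime_three
    have ho : orderOf y = 3 := orderOf_eq_prime
      (by rw [← map_pow]; exact (QuotientGroup.eq_one_iff _).2 hx)
      (fun h => hx1 (by simpa [Subgroup.mem_subgroupOf] using (QuotientGroup.eq_one_iff _).1 h))
    rw [← ho]
    exact orderOf_dvd_natCard y
  have hcop : Nat.Coprime H.index 3 := (Nat.prime_three.coprime_iff_not_dvd.2 fun h => h9 (by
    rw [← Subgroup.relIndex_mul_index hKH, show (9 : ℕ) = 3 * 3 by norm_num]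
    exact Nat.mul_dvd_mul h3H h)).symm
  obtain ⟨u, -, hu⟩ := Nat.exists_mul_mod_eq_one_of_coprime hcop (by norm_num)
  have hψ'3 : ∀ h, ψ' h ^ 3 = 1 := fun h => hexp _
  refine ⟨MonoidHom.transfer ψ' ^ u, MonoidHom.ext fun g => ?_, fun k => ?_⟩
  · rw [MonoidHom.pow_apply, MonoidHom.pow_apply, MonoidHom.one_apply, ← pow_mul, mul_comm, pow_mul,
      MonoidHom.transfer_def _ default, Subgroup.leftTransversals.diff, ← Finset.prod_pow,
      Finset.prod_eq_one (fun q _ => hψ'3 _), one_pow]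
  · let := H.fintypeQuotientOfFiniteIndex
    have hk : MonoidHom.transfer ψ' (k : G) = ψ k ^ H.index := by
      rw [MonoidHom.transfer_def _ default, Subgroup.leftTransversals.diff, Subgroup.index,
        Nat.card_eq_fintype_card, ← Finset.card_univ, ← Finset.prod_const]
      refine Finset.prod_congr rfl fun q _ => ?_
      set T : H.LeftTransversal := default
      set a : G := (T.2.leftQuotientEquiv q : G)
      have hq : (k : G)⁻¹ • q = q := by
        induction q using QuotientGroup.induction_on with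
        | _ z =>
          show QuotientGroup.mk ((k : G)⁻¹ * z) = QuotientGroup.mk z
          rw [QuotientGroup.eq, mul_inv_rev, inv_inv, mul_assoc]
          simpa [mul_assoc] using hKH (hK.conj_mem _ k.2 z⁻¹)
      have e : ((( k : G) • T).2.leftQuotientEquiv q : G) = k * a := by
        rw [Subgroup.smul_apply_eq_smul_apply_inv_smul, hq]
        rfl
      show ψ ⟨_, hi _⟩ = ψ k
      have hm : a⁻¹ * (((k : G) • T).2.leftQuotientEquiv q : G) * x ^ (0 : ℤ) ∈ K := by
        rw [e, zpow_zero, mul_one]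
        simpa [mul_assoc] using hK.conj_mem _ k.2 a⁻¹
      rw [hwd _ _ _ (hi _) hm, ← hinv a⁻¹ k (hK.conj_mem _ k.2 _)]
      exact congrArg ψ (Subtype.ext (by simp only [e, zpow_zero, mul_one, inv_inv, mul_assoc]; rfl))
    rw [MonoidHom.pow_apply, hk, ← pow_mul, pow_eq_pow_mod _ (hexp k), hu, pow_one]

end Extend

section Gamma

variable {L r : ℕ} [hr : Fact r.Prime]

local notation "red" => Matrix.SpecialLinearGroup.map (Int.castRingHom (ZMod r))

/-- The subgroup `Γ₀(L) ∩ Γ(r)` of `Γ₀(L)`. -/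
def coreGrp (L r : ℕ) : Subgroup (Gamma0 L) := (Gamma r).subgroupOf (Gamma0 L)

instance : (coreGrp L r).Normal :=
  haveI := CongruenceSubgroup.Gamma_normal r
  Subgroup.normal_subgroupOf

omit hr in
/-- An element of `Γ₀(L)` is in the core if it is `1` modulo `r`. -/
theorem mem_coreGrp {g : Gamma0 L} : g ∈ coreGrp L r ↔ red (g : SL(2, ℤ)) = 1 := Iff.rfl

instance : (coreGrp L r).FiniteIndex := by
  have : NeZero r := ⟨hr.out.ne_zero⟩
  exact inferInstanceAs ((Gamma r).subgroupOf (Gamma0 L)).FiniteIndex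

/-- A matrix of determinant one from its entries. -/
def mkSL {R : Type*} [CommRing R] (a b c d : R) (h : a * d - b * c = 1) : SL(2, R) :=
  ⟨!![a, b; c, d], by rw [Matrix.det_fin_two_of, h]⟩

@[simp] theorem coe_mkSL {R : Type*} [CommRing R] (a b c d : R) (h : a * d - b * c = 1) :
    ((mkSL a b c d h : SL(2, R)) : Matrix (Fin 2) (Fin 2) R) = !![a, b; c, d] := rfl

/-- The lower unipotent element of `Γ₀(L)`. -/
def lowU (L : ℕ) : Gamma0 L := ⟨mkSL 1 0 (L : ℤ) 1 (by ring), by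
  simp [Gamma0_mem]⟩

/-- The upper unipotent element of `Γ₀(L)`. -/
def upU (L : ℕ) : Gamma0 L := ⟨T, by simp [Gamma0_mem, coe_T]⟩

theorem red_upU (n : ℤ) :
    ((red ((upU L ^ n : Gamma0 L) : SL(2, ℤ))) : Matrix (Fin 2) (Fin 2) (ZMod r)) =
      !![1, (n : ZMod r); 0, 1] := by
  rw [SubgroupClass.coe_zpow]
  ext i j
  fin_cases i <;> fin_cases j <;>
    simp only [upU, Matrix.SpecialLinearGroup.map_apply_coe, RingHom.mapMatrix_apply, coe_T_zpow,
      Matrix.map_apply] <;> simp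

theorem red_lowU (n : ℕ) :
    ((red ((lowU L ^ n : Gamma0 L) : SL(2, ℤ))) : Matrix (Fin 2) (Fin 2) (ZMod r)) =
      !![1, 0; (n : ZMod r) * L, 1] := by
  induction n with
  | zero => simp [Matrix.one_fin_two]
  | succ n ih =>
    rw [pow_succ, Subgroup.coe_mul, map_mul, Matrix.SpecialLinearGroup.coe_mul, ih]
    ext i j
    fin_cases i <;> fin_cases j <;>
      simp [lowU, Matrix.SpecialLinearGroup.map_apply_coe, RingHom.mapMatrix_apply,
        Matrix.mul_apply, Fin.sum_univ_two]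
    ring

/-- Elements of determinant one with nonzero lower left entry are words in the two unipotents. -/
theorem exists_word (hrL : ¬ r ∣ L) (m : SL(2, ZMod r)) (hm : m 1 0 ≠ 0) :
    ∃ (i k : ℤ) (j : ℕ), red ((upU L ^ i * lowU L ^ j * upU L ^ k : Gamma0 L) : SL(2, ℤ)) = m := by
  have hL : (L : ZMod r) ≠ 0 := fun h => hrL ((ZMod.natCast_eq_zero_iff _ _).1 h)
  have hdet := m.det_coe
  rw [Matrix.det_fin_two] at hdet
  refine ⟨(((m 0 0 - 1) / m 1 0).val : ℤ), (((m 1 1 - 1) / m 1 0).val : ℤ), (m 1 0 / L).val,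
    Matrix.SpecialLinearGroup.ext _ _ fun a b => ?_⟩
  rw [Subgroup.coe_mul, Subgroup.coe_mul, map_mul, map_mul, Matrix.SpecialLinearGroup.coe_mul,
    Matrix.SpecialLinearGroup.coe_mul, red_upU, red_lowU, red_upU]
  fin_cases a <;> fin_cases b <;>
    simp [Matrix.mul_apply, Fin.sum_univ_two] <;> field_simp <;> grind

/-- The core and the two unipotents generate `Γ₀(L)`. -/
theorem mem_closure_gen (hrL : ¬ r ∣ L) (g : Gamma0 L) :
    g ∈ coreGrp L r ⊔ Subgroup.closure {upU L, lowU L} := by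
  set S := coreGrp L r ⊔ Subgroup.closure ({upU L, lowU L} : Set (Gamma0 L))
  have hu : upU L ∈ S := le_sup_right (a := coreGrp L r) (Subgroup.subset_closure (by simp))
  have hl : lowU L ∈ S := le_sup_right (a := coreGrp L r) (Subgroup.subset_closure (by simp))
  have key : ∀ g : Gamma0 L, (red (g : SL(2, ℤ))) 1 0 ≠ 0 → g ∈ S := by
    intro g hg
    obtain ⟨i, k, j, h⟩ := exists_word (L := L) hrL _ hg
    set v : Gamma0 L := upU L ^ i * lowU L ^ j * upU L ^ k with hv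
    have hgv : g * v⁻¹ ∈ coreGrp L r := by
      rw [mem_coreGrp, Subgroup.coe_mul, Subgroup.coe_inv, map_mul, map_inv, h, mul_inv_cancel]
    rw [← inv_mul_cancel_right g v]
    exact mul_mem (le_sup_left (b := Subgroup.closure _) hgv)
      (mul_mem (mul_mem (zpow_mem hu i) (pow_mem hl j)) (zpow_mem hu k))
  by_cases hg : (red (g : SL(2, ℤ))) 1 0 = 0
  swap
  · exact key g hg
  rw [← mul_inv_cancel_right g (lowU L)]
  refine mul_mem (key _ ?_) (inv_mem hl)
  have hdet := (red (g : SL(2, ℤ))).det_coe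
  rw [Matrix.det_fin_two, hg, mul_zero, sub_zero] at hdet
  have h1 := red_lowU (L := L) (r := r) 1
  rw [pow_one, Nat.cast_one, one_mul] at h1
  rw [Subgroup.coe_mul, map_mul, Matrix.SpecialLinearGroup.coe_mul, h1, Matrix.mul_apply,
    Fin.sum_univ_two, hg]
  have hL : (L : ZMod r) ≠ 0 := fun h => hrL ((ZMod.natCast_eq_zero_iff _ _).1 h)
  simpa using mul_ne_zero (right_ne_zero_of_mul (hdet.trans_ne one_ne_zero)) hL

/-- A parabolic character trivial on the core is trivial. -/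
theorem eq_one_of_core (hrL : ¬ r ∣ L) {θ : Gamma0 L →* ℂˣ} (hθ : ES.IsParChar (Gamma0 L) θ)
    (hK : ∀ k ∈ coreGrp L r, θ k = 1) : θ = 1 := by
  refine MonoidHom.ext fun g => ?_
  have hle : coreGrp L r ⊔ Subgroup.closure {upU L, lowU L} ≤ θ.ker := by
    refine sup_le hK ((Subgroup.closure_le _).2 ?_)
    rintro z (rfl | rfl) <;> refine hθ _ ?_ <;>
      simp [upU, lowU, coe_T, Matrix.trace_fin_two]
  exact hle (mem_closure_gen hrL g)

theorem not_nine_dvd_index (hr9 : r % 9 = 2) : ¬ 9 ∣ (coreGrp L r).index := by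
  let f : Gamma0 L →* GL (Fin 2) (ZMod r) :=
    (Matrix.SpecialLinearGroup.toGL.comp red).comp (Gamma0 L).subtype
  have hker : f.ker = coreGrp L r := by
    ext g
    rw [MonoidHom.mem_ker, mem_coreGrp]
    exact ⟨fun h => Matrix.SpecialLinearGroup.ext _ _ fun i j => by
      have := congrArg (fun u : GL (Fin 2) (ZMod r) => (u : Matrix _ _ (ZMod r)) i j) h
      simpa [f] using this, fun h => by simp [f, h]⟩
  intro h
  rw [← hker, Subgroup.index_ker] at h
  have h' := h.trans (Subgroup.card_subgroup_dvd_card f.range)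
  rw [Matrix.card_GL_field, Fin.prod_univ_two, ZMod.card] at h'
  obtain ⟨q, rfl⟩ : ∃ q, r = 9 * q + 2 := ⟨r / 9, by omega⟩
  have e1 : (9 * q + 2) ^ 2 - (9 * q + 2) ^ 0 = 9 * (9 * q * q + 4 * q) + 3 := by
    rw [pow_zero]; have : (9 * q + 2) ^ 2 = 9 * (9 * q * q + 4 * q) + 4 := by ring
    omega
  have e2 : (9 * q + 2) ^ 2 - (9 * q + 2) ^ 1 = 9 * (9 * q * q + 3 * q) + 2 := by
    rw [pow_one]; have : (9 * q + 2) ^ 2 = 9 * (9 * q * q + 4 * q) + 4 := by ring
    omega
  rw [Fin.val_zero, Fin.val_one, e1, e2] at h'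
  rw [Nat.dvd_iff_mod_eq_zero, Nat.mul_mod] at h'
  simp at h'

/-- **Invariant characters of exponent three of the core extend.** -/
theorem exists_extend_gamma0 (hr9 : r % 9 = 2) (hr2 : r ≠ 2) (hrL : ¬ r ∣ L)
    (ψ : coreGrp L r →* ℂˣ) (hexp : ∀ k, ψ k ^ 3 = 1)
    (hinv : ∀ (g : Gamma0 L) (k : coreGrp L r) (h : g * k * g⁻¹ ∈ coreGrp L r),
      ψ ⟨_, h⟩ = ψ k) :
    ∃ θ : Gamma0 L →* ℂˣ, θ ^ 3 = 1 ∧ ∀ k : coreGrp L r, θ k = ψ k := by
  let X : SL(2, ZMod r) := mkSL 0 (-1) 1 (-1) (by ring)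
  obtain ⟨i, k, j, hX⟩ := exists_word (L := L) hrL X (by simp [X])
  -- the element inverting `X`
  obtain ⟨a, b, hab, ha⟩ : ∃ a b : ZMod r, a ^ 2 - a * b + b ^ 2 = -1 ∧ a ≠ 0 := by
    have h2 : (2 : ZMod r) ≠ 0 := fun h => hr2 ((Nat.prime_dvd_prime_iff_eq hr.out Nat.prime_two).1
      ((ZMod.natCast_eq_zero_iff 2 r).1 (by exact_mod_cast h)))
    have h3 : (3 : ZMod r) ≠ 0 := fun h => by
      have := (Nat.prime_dvd_prime_iff_eq hr.out Nat.prime_three).1
        ((ZMod.natCast_eq_zero_iff 3 r).1 (by exact_mod_cast h))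
      omega
    obtain ⟨X, Y, h⟩ := FiniteField.exists_root_sum_quadratic
      (f := (Polynomial.X ^ 2 + Polynomial.C 4 : Polynomial (ZMod r)))
      (g := Polynomial.C 3 * Polynomial.X ^ 2) (Polynomial.degree_X_pow_add_C (by norm_num) _)
      (Polynomial.degree_C_mul_X_pow 2 h3) (by
        rw [ZMod.card]; exact Nat.odd_iff.1 (hr.out.odd_of_ne_two hr2))
    simp at h
    have hh : (2 : ZMod r) * (2 : ZMod r)⁻¹ = 1 := mul_inv_cancel₀ h2
    have hab : ((X + Y) * 2⁻¹) ^ 2 - ((X + Y) * 2⁻¹) * Y + Y ^ 2 = -1 := by grind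
    by_cases ha : (X + Y) * 2⁻¹ = (0 : ZMod r)
    · refine ⟨-Y, -Y, by rw [ha] at hab; linear_combination hab, fun h0 => ?_⟩
      rw [ha, neg_eq_zero.1 h0] at hab
      simp at hab
    · exact ⟨_, _, hab, ha⟩
  let Wm : SL(2, ZMod r) := mkSL b (a - b) a (-b) (by linear_combination -hab)
  obtain ⟨i', k', j', hW⟩ := exists_word (L := L) hrL Wm (by simpa [Wm] using ha)
  set x : Gamma0 L := upU L ^ i * lowU L ^ j * upU L ^ k
  set w : Gamma0 L := upU L ^ i' * lowU L ^ j' * upU L ^ k'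
  have hXW : Wm * X * Wm⁻¹ * X = 1 := by
    have e : Wm * X = X⁻¹ * Wm := by
      refine Matrix.SpecialLinearGroup.ext _ _ fun s t => ?_
      rw [Matrix.SpecialLinearGroup.coe_mul, Matrix.SpecialLinearGroup.coe_mul,
        Matrix.SpecialLinearGroup.coe_inv]
      fin_cases s <;> fin_cases t <;>
        simp [Wm, X, Matrix.adjugate_fin_two, Matrix.mul_apply, Fin.sum_univ_two] <;> ring
    rw [e, mul_inv_cancel_right, inv_mul_cancel]
  refine exists_extend_cube (coreGrp L r) ψ hexp hinv (not_nine_dvd_index hr9) x ?_ ?_ w ?_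
  · rw [mem_coreGrp, SubmonoidClass.coe_pow, map_pow, hX]
    refine Matrix.SpecialLinearGroup.ext _ _ fun s t => ?_
    rw [pow_three, Matrix.SpecialLinearGroup.coe_mul, Matrix.SpecialLinearGroup.coe_mul]
    fin_cases s <;> fin_cases t <;> simp [X, Matrix.mul_apply, Fin.sum_univ_two]
  · rw [mem_coreGrp, hX]
    intro h
    have := congrArg (fun u : SL(2, ZMod r) => u 1 0) h
    simp [X] at this
  · rw [mem_coreGrp, Subgroup.coe_mul, Subgroup.coe_mul, Subgroup.coe_mul, Subgroup.coe_inv,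
      map_mul, map_mul, map_mul, map_inv, hX, hW, hXW]

end Gamma

end FermatAgent.BAD.AtP.Drop

end
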