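import Fermat.Agent.BAD.Toric.MazurFrob

/-!
# Restriction of characters from `Γ₀(L q)` to `Γ₀(L r q)`

Restriction commutes with the Hecke operators, the involution, the conjugation and the transfer.
-/

set_option autoImplicit false

noncomputable section

open UpperHalfPlane CongruenceSubgroup
open scoped MatrixGroups ModularForm

namespace FermatAgent.BAD.AtP.Drop

open FermatAgent.ES FermatAgent.BAD.Toric

/-- Restriction of characters. -/
def resPar {N N' : ℕ} (h : N ∣ N') {n : ℕ} : parGroup (Gamma0 N) n →* parGroup (Gamma0 N') n where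
  toFun φ := ⟨(φ : Gamma0 N →* ℂˣ).comp (Subgroup.inclusion (HM.gamma0_le_of_dvd h)),
    MonoidHom.ext fun _ => DFunLike.congr_fun φ.2.1 _, fun _ hγ => φ.2.2 _ hγ⟩
  map_one' := rfl
  map_mul' _ _ := rfl

theorem resPar_apply {N N' : ℕ} (h : N ∣ N') {n : ℕ} (φ : parGroup (Gamma0 N) n) (γ : Gamma0 N') :
    (resPar h φ).1 γ = φ.1 ⟨γ, HM.gamma0_le_of_dvd h γ.2⟩ := rfl

variable {N N' : ℕ} [NeZero N] [NeZero N'] (h : N ∣ N')

omit [NeZero N] [NeZero N'] in
/-- The Hecke operators away from the larger level commute with restriction. -/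
theorem heckeChar_res {ℓ : ℕ} (hℓ : ℓ.Prime) (hℓN' : ¬ ℓ ∣ N') (φ : Gamma0 N →* ℂˣ) :
    heckeChar N' hℓ (φ.comp (Subgroup.inclusion (HM.gamma0_le_of_dvd h))) =
      (heckeChar N hℓ φ).comp (Subgroup.inclusion (HM.gamma0_le_of_dvd h)) := by
  have := Fact.mk hℓ
  have : NeZero ℓ := ⟨hℓ.ne_zero⟩
  have hℓN : ¬ ℓ ∣ N := fun hd => hℓN' (hd.trans h)
  refine MonoidHom.ext fun γ => ?_
  rw [MonoidHom.comp_apply, heckeChar_of_not_dvd hℓN', heckeChar_of_not_dvd hℓN, charOp_apply,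
    charOp_apply]
  refine Finset.prod_congr rfl fun i _ => ?_
  rw [MonoidHom.comp_apply]
  refine congrArg φ (Subtype.ext ?_)
  have h1 := (Period.transferDataT hℓN').factor_spec γ i
  have h2 := (Period.transferDataT hℓN).factor_spec (Subgroup.inclusion (HM.gamma0_le_of_dvd h) γ) i
  exact Matrix.SpecialLinearGroup.mapGL_injective (R := ℤ) (S := ℝ)
    (mul_right_cancel (h1.symm.trans h2))

variable {n : ℕ} [NeZero n]

/-- Conjugation commutes with restriction. -/
theorem conjAut_res (σ : ℂ ≃+* ℂ) (φ : parGroup (Gamma0 N) n) :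
    conjAut (goodLevel_Gamma0 N') n σ (resPar h φ) =
      resPar h (conjAut (goodLevel_Gamma0 N) n σ φ) := by
  obtain ⟨i, v, v', c, hv, hv0, hv', hv0', hc, hc'⟩ :=
    conjChar_spec (goodLevel_Gamma0 N) σ φ
  obtain ⟨d, hd⟩ := id h
  have hd0 : d ≠ 0 := fun e => NeZero.ne N' (by rw [hd, e, mul_zero])
  have e : 12 * N' = d * (12 * N) := by rw [hd]; ring
  rw [conjAut_apply, conjAut_apply]
  refine conjChar_eq (goodLevel_Gamma0 N') ⟨i, v, v', PowerSeries.expand d hd0 c,
    ⟨hv.mdiff, fun γ => hv.slash ⟨γ, HM.gamma0_le_of_dvd h γ.2⟩, hv.bdd⟩, hv0,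
    ⟨hv'.mdiff, fun γ => hv'.slash ⟨γ, HM.gamma0_le_of_dvd h γ.2⟩, hv'.bdd⟩, hv0',
      e ▸ hc.expand hd0, ?_⟩
  rw [PowerSeries.map_expand]
  exact e ▸ hc'.expand hd0

section Invol

variable {q : ℕ} [hq : Fact q.Prime] {L r M : ℕ} [NeZero M] (hM : M.Coprime q)
  (hLrM : L * r ∣ M)

omit hq in
/-- `L q` divides `L r q`. -/
theorem dvd_lift : L * q ∣ L * r * q := Nat.mul_dvd_mul_right (dvd_mul_right L r) q

omit [NeZero n] in
/-- The involution commutes with restriction. -/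
theorem wAut_res (φ : parGroup (Gamma0 (L * q)) n) :
    wAut hM hLrM n (resPar (dvd_lift (r := r)) φ) =
      resPar (dvd_lift (r := r)) (wAut hM ((dvd_mul_right L r).trans hLrM) n φ) := by
  refine Subtype.ext (MonoidHom.ext fun γ => ?_)
  rw [coe_wAut, MonoidHom.comp_apply, resPar_apply, resPar_apply, coe_wAut, MonoidHom.comp_apply]
  refine congrArg _ (Subtype.ext (Subtype.ext ?_))
  have h1 := wHom_spec hM (isLevel_gamma0 hM hLrM) γ
  have h2 := wHom_spec hM (isLevel_gamma0 hM ((dvd_mul_right L r).trans hLrM))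
    ⟨γ, HM.gamma0_le_of_dvd (dvd_lift (r := r)) γ.2⟩
  have h3 := congrArg (· * (alMat q (atkinMat hM)).adjugate) (h1.symm.trans h2)
  simp only [Matrix.mul_assoc, Matrix.mul_adjugate, Matrix.mul_smul, mul_one] at h3
  refine smul_right_injective (Matrix (Fin 2) (Fin 2) ℤ) ?_ h3
  rw [alMat, Matrix.det_mul]
  simp [(Fact.out : q.Prime).ne_zero]

omit [NeZero n] in
/-- A balanced form stays balanced at the larger level. -/
theorem balForm_res {P : CPlace q} {χ : parGroup (Gamma0 (L * q)) n} {a : ℕ} {v : ℍ → ℂ}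
    {c c0 : PowerSeries ℂ} (hb : BalForm hM P χ a v c c0) :
    BalForm hM P (resPar (dvd_lift (r := r)) χ) a v c c0 :=
  { twist := ⟨hb.twist.mdiff, fun γ => hb.twist.slash ⟨γ, HM.gamma0_le_of_dvd dvd_lift γ.2⟩,
      hb.twist.bdd⟩
    ne_zero := hb.ne_zero
    exp := hb.exp
    expW := hb.expW
    cont := hb.cont
    cont0 := hb.cont0 }

end Invol

section Transfer

variable (D : HM.ALData) {r : ℕ} [hr : Fact r.Prime] (hrq : r ≠ D.q)

theorem exists_raise (hrq : r ≠ D.q) : ∃ y w : ℤ, (D.q : ℤ) * w - ((D.L * r : ℕ) : ℤ) * y = 1 := by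
  obtain ⟨u, v, huv⟩ : IsCoprime (D.q : ℤ) ((D.L * r : ℕ) : ℤ) :=
    Nat.isCoprime_iff_coprime.mpr (D.prime.coprime_iff_not_dvd.mpr fun hd =>
      (D.prime.dvd_mul.1 hd).elim D.not_dvd fun h =>
        hrq ((Nat.prime_dvd_prime_iff_eq D.prime hr.out).1 h).symm)
  exact ⟨-v, u, by linear_combination huv⟩

/-- The data at the level raised by `r`. -/
@[reducible] def raiseData : HM.ALData where
  q := D.q
  L := D.L * r
  y := (exists_raise D hrq).choose
  w := (exists_raise D hrq).choose_spec.choose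
  prime := D.prime
  not_dvd h := (D.prime.dvd_mul.1 h).elim D.not_dvd fun h =>
    hrq ((Nat.prime_dvd_prime_iff_eq D.prime hr.out).1 h).symm
  L_ne_zero := mul_ne_zero D.L_ne_zero hr.out.ne_zero
  rel := (exists_raise D hrq).choose_spec.choose_spec

theorem cor_fac_spec (γ : Gamma0 D.L) (x : D.PLine) :
    D.transversal x * (γ : SL(2, ℤ)) = ((D.corCorr (L := 1) (one_dvd D.L)).fac γ x : SL(2, ℤ)) *
      D.transversal ((D.corCorr (L := 1) (one_dvd D.L)).perm γ x) :=
  Subtype.ext (by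
    rw [Matrix.SpecialLinearGroup.coe_mul, Matrix.SpecialLinearGroup.coe_mul]
    exact (D.corCorr (L := 1) (one_dvd D.L)).fac_spec γ x)

theorem cor_perm (γ : Gamma0 D.L) (x : D.PLine) :
    (D.corCorr (L := 1) (one_dvd D.L)).perm γ x =
      D.rowClass (D.transversal x * (γ : SL(2, ℤ))) := by
  rw [cor_fac_spec, D.rowClass_mul_left (Subtype.coe_prop _), D.rowClass_transversal]

/-- The transfer commutes with restriction. -/
theorem trCor_res (φ : Gamma0 D.N →* ℂˣ) (hN : D.N ∣ (raiseData D hrq).N)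
    (γ : Gamma0 (raiseData D hrq).L) :
    trCor (raiseData D hrq) (φ.comp (Subgroup.inclusion (HM.gamma0_le_of_dvd hN))) γ =
      trCor D φ ⟨γ, HM.gamma0_le_of_dvd (dvd_mul_right D.L r) γ.2⟩ := by
  classical
  have hrc : ∀ g : SL(2, ℤ), (raiseData D hrq).rowClass g = D.rowClass g := fun g => rfl
  set γ₀ : Gamma0 D.L := ⟨γ, HM.gamma0_le_of_dvd (dvd_mul_right D.L r) γ.2⟩
  set C := D.corCorr (L := 1) (one_dvd D.L)
  set C' := (raiseData D hrq).corCorr (L := 1) (one_dvd (raiseData D hrq).L)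
  have hmemL : ∀ x : D.PLine, (raiseData D hrq).transversal x ∈ Gamma0 D.L := fun x =>
    HM.gamma0_le_of_dvd (dvd_mul_right D.L r) ((raiseData D hrq).transversal_mem x)
  let δ : D.PLine → Gamma0 D.N := fun x => ⟨(raiseData D hrq).transversal x * (D.transversal x)⁻¹,
    D.mul_inv_mem (hmemL x) (D.transversal_mem x) (by
      rw [← hrc, (raiseData D hrq).rowClass_transversal, D.rowClass_transversal])⟩
  have hδ : ∀ x, (raiseData D hrq).transversal x = (δ x : SL(2, ℤ)) * D.transversal x := fun x => by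
    simp [δ]
  have hperm : ∀ x : D.PLine, C'.perm γ x = C.perm γ₀ x := fun x => by
    rw [cor_perm, cor_perm, hrc, hδ, mul_assoc, D.rowClass_mul_left (δ x).2]
  have hfac : ∀ x : D.PLine, Subgroup.inclusion (HM.gamma0_le_of_dvd hN) (C'.fac γ x) =
      δ x * C.fac γ₀ x * (δ (C.perm γ₀ x))⁻¹ := fun x => by
    refine Subtype.ext ?_
    have h1 := cor_fac_spec (raiseData D hrq) γ x
    have h2 := cor_fac_spec D γ₀ x
    rw [hperm, hδ, hδ, mul_assoc] at h1
    rw [show (γ : SL(2, ℤ)) = (γ₀ : SL(2, ℤ)) from rfl, h2] at h1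
    simp only [Subgroup.coe_mul, Subgroup.coe_inv]
    have h1 := eq_mul_inv_of_mul_eq h1.symm
    show ((C'.fac γ x : Gamma0 (raiseData D hrq).N) : SL(2, ℤ)) = _
    rw [h1]
    simp [C, mul_assoc]
  show ∏ x : (raiseData D hrq).PLine,
    φ (Subgroup.inclusion (HM.gamma0_le_of_dvd hN) (C'.fac γ x)) = _
  rw [trCor]
  simp only [hfac, map_mul, map_inv, Finset.prod_mul_distrib, Finset.prod_inv_distrib]
  rw [Equiv.prod_comp (C.perm γ₀) fun x => φ (δ x)]
  rw [mul_comm (∏ x, φ (δ x)), mul_inv_cancel_right]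

end Transfer

end FermatAgent.BAD.AtP.Drop

end
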