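import Fermat.Agent.BAD.AtP.Drop.Invariant
import Fermat.Agent.BAD.AtP.Drop.Restrict

/-!
# The Frobenius relation modulo three through an auxiliary prime

The classes are computed at the level raised by a prime `r ≡ 2 (mod 9)`, descend to the original
level and vanish there, so the relation holds at the original level.
-/

set_option autoImplicit false

noncomputable section

open UpperHalfPlane CongruenceSubgroup
open scoped MatrixGroups ModularForm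

namespace FermatAgent.BAD.AtP.Drop

open FermatAgent.BAD.Toric FermatAgent.PSEMI
open FermatAgent.ES (AuxLevel CPlace IsTwist HasExp IsParChar parGroup conjAut galChar galChar_eq
  goodLevel_Gamma0 heckeChar heckeChar_mem_parGroup)

/-- A balanced form remains one at a finer auxiliary level, up to a constant in the transform. -/
theorem exists_balForm_finer {q : ℕ} [hq : Fact q.Prime] {L M₀ M : ℕ} [NeZero M₀] [NeZero M]
    {hM₀ : M₀.Coprime q} (hM : M.Coprime q) (hL : L ∣ M₀) (hd : M₀ ∣ M) {n : ℕ} [NeZero n]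
    (hn : n.Coprime q) {P : CPlace q} {χ : parGroup (Gamma0 (L * q)) n} {a : ℕ} {v : ℍ → ℂ}
    {c c0 : PowerSeries ℂ} (h : BalForm hM₀ P χ a v c c0) :
    ∃ c0' : PowerSeries ℂ, BalForm hM P χ a v c c0' := by
  set δ : SL(2, ℤ) := atkinMat hM * (atkinMat hM₀)⁻¹ with hδ
  have hδ0 : δ ∈ Gamma M₀ :=
    mul_mem (ES.gamma_le_of_dvd hd (atkinMat_mem hM)) (inv_mem (atkinMat_mem hM₀))
  have hδq : (q : ℤ) ∣ δ 1 0 := by
    rw [hδ, Matrix.SpecialLinearGroup.coe_mul, Matrix.mul_apply, Fin.sum_univ_two,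
      Matrix.SpecialLinearGroup.coe_inv, Matrix.adjugate_fin_two]
    simp only [Matrix.of_apply, Matrix.cons_val', Matrix.cons_val_zero, Matrix.cons_val_one,
      Matrix.empty_val', Matrix.cons_val_fin_one]
    exact Int.dvd_add ((atkinMat_dvd hM₀).2.mul_left _) ((atkinMat_dvd hM).2.mul_right _)
  have hδL : (L : ℤ) ∣ δ 1 0 := by
    have := (Gamma_mem.1 hδ0).2.2.1
    rw [ZMod.intCast_zmod_eq_zero_iff_dvd] at this
    exact (Int.natCast_dvd_natCast.2 hL).trans this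
  have hδN : δ ∈ Gamma0 (L * q) := by
    rw [Gamma0_mem, ZMod.intCast_zmod_eq_zero_iff_dvd, Nat.cast_mul]
    refine (Int.isCoprime_iff_gcd_eq_one.2 ?_).mul_dvd hδL hδq
    rw [Int.gcd_natCast_natCast]
    exact Nat.Coprime.coprime_dvd_left hL hM₀
  set z : ℂ := ((χ : Gamma0 (L * q) →* ℂˣ) ⟨δ, hδN⟩ : ℂ)
  have hz : z ^ n = 1 := by
    rw [← Units.val_pow_eq_pow_val, ← MonoidHom.pow_apply, χ.2.1]
    rfl
  set k : ℤ := ((2 * (2 * (6 * a)) : ℕ) : ℤ)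
  have hw : wForm hM k v = z • wForm hM₀ k v := by
    rw [← wForm_smul', wForm, wForm, ModularForm.SL_smul_slash,
      show atkinMat hM = δ * atkinMat hM₀ by simp [hδ], SlashAction.slash_mul,
      h.twist.slash ⟨δ, hδN⟩,
      show (fun τ => ((χ : Gamma0 (L * q) →* ℂˣ) ⟨δ, hδN⟩ : ℂ) * v τ) = z • v from rfl,
      ModularForm.SL_smul_slash]
  refine ⟨PowerSeries.C z * c0, h.twist, h.ne_zero, h.exp, ?_, h.cont, ?_⟩
  · rw [hw, smul_comm]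
    exact h.expW.smul z
  · have hx := inertFixed_of_pow_eq_one (P := P) (NeZero.ne n) (fun hd => hq.out.one_lt.ne'
      (Nat.dvd_one.mp (hn ▸ Nat.dvd_gcd hd dvd_rfl))) hz
    simpa using h.cont0.C_mul hx (j := 0) (by
      rw [zpow_zero]; exact P.abv_eq_one_of_pow_eq_one (NeZero.ne n) hz)

theorem pow_entries {R : Type*} [CommRing R] (A : Matrix (Fin 2) (Fin 2) R) (h : A 1 0 = 0) :
    ∀ k : ℕ, (A ^ k) 1 0 = 0 ∧ (A ^ k) 0 0 = A 0 0 ^ k ∧ (A ^ k) 1 1 = A 1 1 ^ k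
  | 0 => by simp
  | k + 1 => by
    obtain ⟨h1, h2, h3⟩ := pow_entries A h k
    simp [pow_succ, Matrix.mul_apply, Fin.sum_univ_two, h, h1, h2, h3]

section Core

variable {L r : ℕ} [hr : Fact r.Prime]

/-- A character of exponent three is parabolic when it is trivial on the parabolic elements
of `Γ₀(L) ∩ Γ(r)`. -/
theorem isParChar_of_core (hr3 : ¬ 3 ∣ 2 * r) {θ : Gamma0 L →* ℂˣ} (hθ : θ ^ 3 = 1)
    (hK : ∀ k ∈ coreGrp L r, ((k : SL(2, ℤ)) : Matrix (Fin 2) (Fin 2) ℤ).trace ^ 2 = 4 → θ k = 1) :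
    IsParChar (Gamma0 L) θ := by
  intro g hg
  set A : Matrix (Fin 2) (Fin 2) ℤ := ((g : SL(2, ℤ)) : Matrix (Fin 2) (Fin 2) ℤ)
  set B := A * A - 1
  have hdet : A 0 0 * A 1 1 - A 0 1 * A 1 0 = 1 := by
    rw [← Matrix.det_fin_two]; exact (g : SL(2, ℤ)).det_coe
  rw [Matrix.trace_fin_two] at hg
  have hB : B * B = 0 := by
    ext i j
    fin_cases i <;> fin_cases j <;> simp [B, Matrix.mul_apply, Fin.sum_univ_two]
    · linear_combination ((A 0 0 + A 1 1) * A 0 0 - 1) * hg +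
        (-(A 0 0 + A 1 1) ^ 2 + (A 0 0 * A 1 1 - A 0 1 * A 1 0 - 1) - 2 * (A 0 0 + A 1 1) *
          A 0 0 + 4) * hdet
    · linear_combination (A 0 0 + A 1 1) * A 0 1 * hg - 2 * (A 0 0 + A 1 1) * A 0 1 * hdet
    · linear_combination (A 0 0 + A 1 1) * A 1 0 * hg - 2 * (A 0 0 + A 1 1) * A 1 0 * hdet
    · linear_combination ((A 0 0 + A 1 1) * A 1 1 - 1) * hg +
        (-(A 0 0 + A 1 1) ^ 2 + (A 0 0 * A 1 1 - A 0 1 * A 1 0 - 1) - 2 * (A 0 0 + A 1 1) *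
          A 1 1 + 4) * hdet
  have hpow : ∀ m : ℕ, (A * A) ^ m = 1 + (m : ℤ) • B := fun m => by
    induction m with
    | zero => simp
    | succ m ih =>
      rw [pow_succ, ih, show A * A = 1 + B by simp [B], add_mul, one_mul, smul_mul_assoc,
        mul_add, mul_one, hB, add_zero, Nat.cast_succ, add_smul, one_smul]
      abel
  have hk : (((g ^ (2 * r) : Gamma0 L) : SL(2, ℤ)) : Matrix (Fin 2) (Fin 2) ℤ) =
      1 + (r : ℤ) • B := by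
    rw [Subgroup.coe_pow, Matrix.SpecialLinearGroup.coe_pow, pow_mul, pow_two, hpow]
  have hmem : g ^ (2 * r) ∈ coreGrp L r := by
    rw [mem_coreGrp]
    refine Matrix.SpecialLinearGroup.ext _ _ fun i j => ?_
    simp only [Matrix.SpecialLinearGroup.map_apply_coe, RingHom.mapMatrix_apply, Matrix.map_apply]
    rw [hk, Matrix.add_apply, Matrix.smul_apply, smul_eq_mul]
    fin_cases i <;> fin_cases j <;> simp
  have htrB : B.trace = 0 := by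
    simp [B, Matrix.trace_fin_two, Matrix.mul_apply, Fin.sum_univ_two]
    linear_combination hg - 2 * hdet
  have h1 := hK _ hmem (by rw [hk, Matrix.trace_add, Matrix.trace_smul, htrB]; simp)
  rw [map_pow] at h1
  have h3 : θ g ^ 3 = 1 := by rw [← MonoidHom.pow_apply, hθ]; rfl
  have := (pow_gcd_eq_one ..).2 ⟨h1, h3⟩
  rwa [((Nat.Prime.coprime_iff_not_dvd Nat.prime_three).2 hr3).symm.gcd_eq_one, pow_one] at this

/-- A parabolic character of exponent three of `Γ₀(L r)` trivial on `Γ₀(L) ∩ Γ(r)` is trivial. -/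
theorem eq_one_raise (hrL : ¬ r ∣ L) (hr3 : ¬ 3 ∣ r - 1) {ε : Gamma0 (L * r) →* ℂˣ}
    (hε : IsParChar (Gamma0 (L * r)) ε) (h3 : ε ^ 3 = 1)
    (hK : ∀ (k : SL(2, ℤ)) (hk : k ∈ Gamma0 L ⊓ Gamma r),
      ε ⟨k, core_le_gamma0 hrL hk⟩ = 1) : ε = 1 := by
  refine MonoidHom.ext fun g => ?_
  set A : Matrix (Fin 2) (Fin 2) (ZMod r) :=
    ((g : SL(2, ℤ)) : Matrix (Fin 2) (Fin 2) ℤ).map (Int.cast : ℤ → ZMod r)
  have hgL := Gamma0_mem.1 g.2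
  rw [ZMod.intCast_zmod_eq_zero_iff_dvd, Nat.cast_mul] at hgL
  have hA10 : A 1 0 = 0 := (ZMod.intCast_zmod_eq_zero_iff_dvd _ _).2
    ((dvd_mul_left (r : ℤ) _).trans hgL)
  have hdet : A 0 0 * A 1 1 = 1 := by
    have h := congrArg (Int.cast : ℤ → ZMod r) (g : SL(2, ℤ)).det_coe
    rw [Matrix.det_fin_two] at h
    push_cast at h
    simp only [A, Matrix.map_apply] at hA10 ⊢
    rw [hA10, mul_zero, sub_zero] at h
    exact h
  obtain ⟨e10, e00, e11⟩ := pow_entries A hA10 (r - 1)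
  rw [ZMod.pow_card_sub_one_eq_one (left_ne_zero_of_mul_eq_one hdet)] at e00
  rw [ZMod.pow_card_sub_one_eq_one (right_ne_zero_of_mul_eq_one hdet)] at e11
  set b : ℕ := (-((A ^ (r - 1)) 0 1)).val
  set u : Gamma0 (L * r) := ⟨ModularGroup.T, by simp [Gamma0_mem, ModularGroup.coe_T]⟩
  set k := u ^ b * g ^ (r - 1)
  have hcast : (((k : SL(2, ℤ)) : Matrix (Fin 2) (Fin 2) ℤ).map (Int.cast : ℤ → ZMod r)) = 1 := by
    have e : (((k : SL(2, ℤ)) : Matrix (Fin 2) (Fin 2) ℤ).map (Int.cast : ℤ → ZMod r)) =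
        !![1, (b : ZMod r); 0, 1] * A ^ (r - 1) := by
      show (Int.castRingHom (ZMod r)).mapMatrix _ = _
      rw [show ((k : SL(2, ℤ)) : Matrix (Fin 2) (Fin 2) ℤ) =
        (((ModularGroup.T ^ (b : ℤ) : SL(2, ℤ))) : Matrix (Fin 2) (Fin 2) ℤ) *
          ((g : SL(2, ℤ)) : Matrix (Fin 2) (Fin 2) ℤ) ^ (r - 1) by simp [k, u], map_mul, map_pow,
        ModularGroup.coe_T_zpow]
      congr 1
      ext i j
      fin_cases i <;> fin_cases j <;> simp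
    rw [e]
    ext i j
    fin_cases i <;> fin_cases j <;>
      simp [Matrix.mul_apply, Fin.sum_univ_two, e10, e00, e11, b]
  have hk : (k : SL(2, ℤ)) ∈ Gamma0 L ⊓ Gamma r := by
    refine Subgroup.mem_inf.2 ⟨HM.gamma0_le_of_dvd (dvd_mul_right L r) k.2, Gamma_mem.2 ?_⟩
    have h := fun i j => congrFun (congrFun hcast i) j
    simp only [Matrix.map_apply] at h
    refine ⟨?_, ?_, ?_, ?_⟩ <;> simp [h]
  have h1 := hK _ hk
  rw [show (⟨(k : SL(2, ℤ)), core_le_gamma0 hrL hk⟩ : Gamma0 (L * r)) = k from rfl,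
    map_mul, map_pow,
    map_pow, hε u (by simp [u, Matrix.trace_fin_two, ModularGroup.coe_T]), one_pow, one_mul] at h1
  have h2 : ε g ^ 3 = 1 := by rw [← MonoidHom.pow_apply, h3]; rfl
  have := (pow_gcd_eq_one ..).2 ⟨h1, h2⟩
  rwa [((Nat.Prime.coprime_iff_not_dvd Nat.prime_three).2 hr3).symm.gcd_eq_one, pow_one] at this

end Core

/-- Restriction of parabolic characters to a level raised by a prime is injective. -/
theorem eq_of_comp_incl {L r : ℕ} [Fact r.Prime] (hrL : ¬ r ∣ L) {θ θ' : Gamma0 L →* ℂˣ}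
    (hθ : IsParChar (Gamma0 L) θ) (hθ' : IsParChar (Gamma0 L) θ') {N : ℕ} (hN : N ∣ L * r)
    (hLN : L ∣ N)
    (h : θ.comp (Subgroup.inclusion (HM.gamma0_le_of_dvd hLN)) =
      θ'.comp (Subgroup.inclusion (HM.gamma0_le_of_dvd hLN))) : θ = θ' := by
  refine mul_inv_eq_one.1 (eq_one_of_core hrL (fun g hg => ?_) fun k hk => ?_)
  · rw [MonoidHom.mul_apply, MonoidHom.inv_apply, hθ g hg, hθ' g hg, inv_one, one_mul]
  · have hkN : (k : SL(2, ℤ)) ∈ Gamma0 N :=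
      HM.gamma0_le_of_dvd hN (core_le_gamma0 hrL (Subgroup.mem_inf.2 ⟨k.2, hk⟩))
    rw [MonoidHom.mul_apply, MonoidHom.inv_apply, mul_inv_eq_one]
    exact DFunLike.congr_fun h ⟨_, hkN⟩

variable (D : HM.ALData) {r : ℕ} [hr : Fact r.Prime]
  {M : ℕ} [NeZero M] (hM : M.Coprime D.q) (hLrM : D.L * r ∣ M)

include hM hLrM in
/-- **A class at the raised level of an eigencharacter without old part is trivial.** -/
theorem class_eq_one (haux : AuxLevel M 3) (hq3 : D.q ≠ 3) (hr9 : r % 9 = 2) (hr2 : r ≠ 2)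
    (hrL : ¬ r ∣ D.L) {Φ : ℂ ≃+* PadicAlgCl D.q} {χ : parGroup (Gamma0 (D.L * D.q)) 3} {a : ℕ}
    {v : ℍ → ℂ} {c c0 : PowerSeries ℂ} (h : BalForm hM (CPlace.ofEquiv Φ) χ a v c c0)
    {ψ : parGroup (Gamma0 (D.L * r)) 3} {cv : PowerSeries (CPlace.ofEquiv Φ).ring}
    (hcv : cv.map (CPlace.ofEquiv Φ).ring.subtype = c)
    (hψ : IsLevelClassE (CPlace.ofEquiv Φ) 4 (a * (D.q + 1)) ψ (cv.map (CPlace.ofEquiv Φ).res))
    {b : ℕ → ℕ} {E : ℕ} (hrE : D.L * r ∣ E)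
    (heig : ∀ (ℓ : ℕ) (hℓ : ℓ.Prime), ¬ ℓ ∣ E →
      heckeChar (D.L * r) hℓ ψ.1 = ψ.1 ^ b ℓ)
    (hlow : ∀ θ : Gamma0 D.L →* ℂˣ, θ ^ 3 = 1 →
      (∀ (ℓ : ℕ) (hℓ : ℓ.Prime), ¬ ℓ ∣ E → heckeChar D.L hℓ θ = θ ^ b ℓ) → θ = 1) : ψ = 1 := by
  have : NeZero (D.L * r) := ⟨mul_ne_zero D.L_ne_zero hr.out.ne_zero⟩
  have hLM : D.L ∣ M := (dvd_mul_right _ r).trans hLrM
  have hn : Nat.Coprime 3 D.q :=
    (Nat.coprime_primes Nat.prime_three D.prime).mpr hq3.symm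
  have hP := ES.hasCDVRs_ofEquiv Φ
  have hr32 : ¬ 3 ∣ 2 * r := by omega
  have hr31 : ¬ 3 ∣ r - 1 := by omega
  obtain ⟨cF, cv', hcF, hcv', -, hcv0, hres⟩ := exists_balForm1_ser hM hLM haux hq3 hP hn h
  obtain rfl : cv' = cv := PowerSeries.map_injective _ Subtype.val_injective (hcv'.trans hcv.symm)
  obtain ⟨i, j, v1, D1, cv1, cD, hij, hv1, hD1, hcv1, hcD, hD0, hrel⟩ := hψ
  have hinv := fun {g : SL(2, ℤ)} (hg : g ∈ Gamma0 D.L) {k : SL(2, ℤ)}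
      (hk : k ∈ Gamma0 D.L ⊓ Gamma r) (hgk : g * k * g⁻¹ ∈ Gamma0 (D.L * r)) =>
    apply_conj_eq haux hrL hLrM hM hn hP ψ (f := 6 * 3 * (a * (D.q + 1))) (e := 4)
      (by rw [hij]; ring) hv1 hD1 (isTwist_balForm1 hM hLM h) hcv1 hcD hcF hD0
      (by rw [hres]; exact pow_ne_zero 3 hcv0)
      (by rw [hrel, hres, mul_pow, ← pow_mul, ← pow_mul]) hg hk hgk
  let ι : coreGrp D.L r →* Gamma0 (D.L * r) :=
    { toFun := fun k => ⟨((k : Gamma0 D.L) : SL(2, ℤ)),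
        core_le_gamma0 hrL (Subgroup.mem_inf.2 ⟨(k : Gamma0 D.L).2, k.2⟩)⟩
      map_one' := rfl
      map_mul' := fun _ _ => rfl }
  obtain ⟨θ, hθ3, hθ⟩ := exists_extend_gamma0 hr9 hr2 hrL ((ψ : Gamma0 (D.L * r) →* ℂˣ).comp ι)
    (fun k => by rw [MonoidHom.comp_apply, ← MonoidHom.pow_apply, ψ.2.1]; rfl)
    (fun g k hk => hinv g.2 (Subgroup.mem_inf.2 ⟨(k : Gamma0 D.L).2, k.2⟩)
      (core_le_gamma0 hrL (Subgroup.mem_inf.2 ⟨(g * k * g⁻¹).2, hk⟩)))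
  have hθp : IsParChar (Gamma0 D.L) θ :=
    isParChar_of_core hr32 hθ3 fun k hk ht => (hθ ⟨k, hk⟩).trans (ψ.2.2 _ ht)
  set incl : Gamma0 (D.L * r) →* Gamma0 D.L :=
    Subgroup.inclusion (HM.gamma0_le_of_dvd (dvd_mul_right D.L r))
  have hψθ : (ψ : Gamma0 (D.L * r) →* ℂˣ) = θ.comp incl := by
    refine mul_inv_eq_one.1 (eq_one_raise hrL hr31 (fun g hg => ?_)
      (MonoidHom.ext fun g => ?_) fun k hk => ?_)
    · rw [MonoidHom.mul_apply, MonoidHom.inv_apply, ψ.2.2 g hg, MonoidHom.comp_apply,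
        hθp _ hg, inv_one, one_mul]
    · rw [MonoidHom.pow_apply, MonoidHom.mul_apply, MonoidHom.inv_apply, mul_pow, inv_pow,
        MonoidHom.comp_apply, ← MonoidHom.pow_apply, ← MonoidHom.pow_apply, ψ.2.1, hθ3]
      simp
    · rw [MonoidHom.mul_apply, MonoidHom.inv_apply, mul_inv_eq_one]
      exact (hθ ⟨⟨k, hk.1⟩, hk.2⟩).symm
  have hθ1 : θ = 1 := hlow θ hθ3 fun ℓ hℓ hℓE => by
    have hℓN : ¬ ℓ ∣ D.L * r := fun hd => hℓE (hd.trans hrE)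
    refine eq_of_comp_incl hrL (heckeChar_mem_parGroup hℓ ⟨hθ3, hθp⟩).2
      (fun g hg => by rw [MonoidHom.pow_apply, hθp g hg, one_pow]) dvd_rfl (dvd_mul_right D.L r) ?_
    rw [← heckeChar_res (dvd_mul_right D.L r) hℓ hℓN]
    have := heig ℓ hℓ hℓE
    rw [hψθ] at this
    exact this
  exact Subtype.ext (by rw [hψθ, hθ1]; rfl)

/-- The relation, at an auxiliary level. -/
theorem mazur_frob3_aux (hq3 : D.q ≠ 3) (hr9 : r % 9 = 2) (hr2 : r ≠ 2) (hrN : ¬ r ∣ D.L * D.q)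
    (φ : parGroup (Gamma0 (D.L * D.q)) 3) (b : ℕ → ℕ) {E : ℕ} (hNE : D.N ∣ E) (hrE : r ∣ E)
    (heig : ∀ (ℓ : ℕ) (hℓ : ℓ.Prime), ¬ ℓ ∣ E → heckeChar (D.L * D.q) hℓ φ.1 = φ.1 ^ b ℓ)
    (hlow : ∀ ψ : Gamma0 D.L →* ℂˣ, ψ ^ 3 = 1 →
      (∀ (ℓ : ℕ) (hℓ : ℓ.Prime), ¬ ℓ ∣ E → heckeChar D.L hℓ ψ = ψ ^ b ℓ) → ψ = 1)
    {ℓ0 : ℕ} (hℓ0 : ℓ0.Prime) (hℓ0E : ¬ ℓ0 ∣ E) (hne : (b ℓ0 : ZMod 3) ≠ (ℓ0 + 1 : ℕ))
    (hT : ∀ γ, trCor D φ.1 γ = 1) (hT' : ∀ γ, trCorW D φ.1 γ = 1) (Φ : ℂ ≃+* PadicAlgCl D.q)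
    (hI : ∀ g ∈ (CPlace.ofEquiv Φ).algVal.inertiaSubgroupIn ℚ,
      galChar (goodLevel_Gamma0 (D.L * D.q)) 3 g φ = φ)
    (s : PadicAlgCl D.q ≃ₐ[ℚ_[D.q]] PadicAlgCl D.q) (hsF : IsFrobLift s) :
    ∃ (M : ℕ) (_ : NeZero M) (hM : M.Coprime D.q) (hLM : D.L ∣ M),
      conjAut (goodLevel_Gamma0 (D.L * D.q)) 3 (conjC Φ s) φ * wAut hM hLM 3 φ ^ D.q = 1 := by
  have : Fact (Nat.Prime 3) := ⟨Nat.prime_three⟩
  have hrL : ¬ r ∣ D.L := fun h => hrN (h.mul_right _)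
  have hrq : r ≠ D.q := fun h => hrN (h ▸ dvd_mul_left D.q D.L)
  have hℓ0N : ¬ ℓ0 ∣ D.L * D.q := fun hd => hℓ0E (hd.trans hNE)
  have hn : Nat.Coprime 3 D.q := (Nat.coprime_primes Nat.prime_three D.prime).mpr hq3.symm
  have : NeZero (D.L * D.q) := ⟨mul_ne_zero D.L_ne_zero D.prime.ne_zero⟩
  have : NeZero (D.L * r) := ⟨mul_ne_zero D.L_ne_zero hr.out.ne_zero⟩
  have : NeZero (D.L * r * D.q) := ⟨mul_ne_zero (NeZero.ne _) D.prime.ne_zero⟩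
  have : NeZero (3 * D.L) := ⟨mul_ne_zero (by norm_num) D.L_ne_zero⟩
  have : NeZero (3 * (D.L * r)) := ⟨mul_ne_zero (by norm_num) (NeZero.ne _)⟩
  set M := 3 * (D.L * r)
  have hM₀ : (3 * D.L).Coprime D.q :=
    Nat.Coprime.mul_left hn ((D.prime.coprime_iff_not_dvd).mpr D.not_dvd).symm
  have hM : M.Coprime D.q := Nat.Coprime.mul_left hn (Nat.Coprime.mul_left
    ((D.prime.coprime_iff_not_dvd).mpr D.not_dvd).symm
    ((Nat.coprime_primes hr.out D.prime).mpr hrq))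
  have haux : AuxLevel M 3 :=
    ⟨Or.inr rfl, dvd_mul_right _ _, by have := NeZero.pos (D.L * r); omega⟩
  have hLrM : D.L * r ∣ M := dvd_mul_left _ _
  have hLM : D.L ∣ M := (dvd_mul_right _ r).trans hLrM
  have h12 : M ∣ 12 * (D.L * r) := mul_dvd_mul_right (by norm_num) _
  obtain ⟨a, v, c, c₀, -, hbal₀⟩ := exists_balForm8 (q := D.q) (L := D.L) (M := 3 * D.L)
    (hM := hM₀) (dvd_mul_left _ _)
    ⟨Or.inr rfl, dvd_mul_right _ _, by have := Nat.pos_of_ne_zero D.L_ne_zero; omega⟩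
    (mul_dvd_mul_right (by norm_num) _) Φ hn hℓ0 hℓ0N φ hI
  obtain ⟨c0, h⟩ := exists_balForm_finer hM (dvd_mul_left _ _)
    (mul_dvd_mul_left 3 (dvd_mul_right D.L r)) hn hbal₀
  refine ⟨M, inferInstance, hM, hLM, ?_⟩
  obtain ⟨j, hjp, hj⟩ := exists_eisDefect_eq_pow φ hℓ0 (heig ℓ0 hℓ0 hℓ0E) hne
  set χ := eisDefect hℓ0 φ ^ 8 with hχ
  have hχ' : χ = φ ^ (j * 8) := by rw [hχ, hj, ← pow_mul]
  have hTχ : ∀ γ, trCor D χ.1 γ = 1 :=
    fun γ => trCor_pow D (trCor_eisDefect D hℓ0 hℓ0N hT) 8 γ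
  have hTχw : ∀ γ, trCorW D χ.1 γ = 1 :=
    fun γ => trCorW_pow D (trCorW_eisDefect D hℓ0 hℓ0N hT') 8 γ
  set D' := raiseData D hrq
  have hN : D.N ∣ D'.N := dvd_lift
  set χ₁ : parGroup (Gamma0 (D'.L * D'.q)) 3 := resPar (dvd_lift (r := r)) χ
  have h₁ : BalForm (L := D'.L) hM (CPlace.ofEquiv Φ) χ₁ a v c c0 := balForm_res hM h
  have hT₁ : ∀ γ, trCor D' χ₁.1 γ = 1 := fun γ =>
    (trCor_res D hrq χ.1 hN γ).trans (hTχ _)
  have hT₁' : ∀ γ, trCorW D' χ₁.1 γ = 1 := fun γ => by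
    refine (trCor_wAut D' hM hLrM χ₁ γ).symm.trans ?_
    rw [wAut_res hM hLrM χ]
    refine (trCor_res D hrq _ hN γ).trans ((trCor_wAut D hM hLM χ _).trans (hTχw _))
  have hr3 : r % 3 = 2 := by omega
  obtain ⟨ψ, ψ0, cv, cv0, hcv, hcv0, hψ, hψ0, -, -, hrel⟩ :=
    exists_class_pair D' haux hM hLrM hq3 h12 hn
      (hasClassesE_four D' hM hLrM haux hq3 hr.out hr3 (dvd_mul_left r D.L) hn)
      h₁ hT₁ hT₁' s hsF
  have hLqE : ∀ {ℓ : ℕ}, ℓ.Prime → ¬ ℓ ∣ E → ¬ ℓ ∣ D.L * r * D.q := fun {ℓ} hℓ hℓE hd => by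
    rcases hℓ.dvd_mul.1 hd with h1 | h1
    · rcases hℓ.dvd_mul.1 h1 with h2 | h2
      · exact hℓE ((h2.mul_right _).trans hNE)
      · exact hℓE (h2.trans hrE)
    · exact hℓE ((h1.mul_left _).trans hNE)
  have hLrE : D.L * r ∣ E := Nat.Coprime.mul_dvd_of_dvd_of_dvd
    ((hr.out.coprime_iff_not_dvd.2 hrL).symm) ((dvd_mul_right D.L D.q).trans hNE) hrE
  have heχ : ∀ (ℓ : ℕ) (hℓ : ℓ.Prime), ¬ ℓ ∣ E →
      heckeChar (D.L * r * D.q) hℓ χ₁.1 = χ₁.1 ^ b ℓ := fun ℓ hℓ hℓE => by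
    have := Fact.mk hℓ
    show heckeChar (D.L * r * D.q) hℓ
      (χ.1.comp (Subgroup.inclusion (HM.gamma0_le_of_dvd (dvd_lift (r := r))))) = _
    rw [heckeChar_res (dvd_lift (r := r)) hℓ (hLqE hℓ hℓE) χ.1,
      show heckeChar (D.L * D.q) hℓ χ.1 = χ.1 ^ b ℓ by
        rw [hχ']; exact heig_pow (fun hd => hℓE (hd.trans hNE)) (heig ℓ hℓ hℓE) _]
    rfl
  have hψ1 : ψ = 1 := class_eq_one D hM hLrM haux hq3 hr9 hr2 hrL h hcv hψ hLrE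
    (fun ℓ hℓ hℓE => by
      have := Fact.mk hℓ
      have : NeZero ℓ := ⟨hℓ.ne_zero⟩
      exact class_eigen haux hM hLrM hq3 hn (hLqE hℓ hℓE) h₁ hcv hψ (heχ ℓ hℓ hℓE)) hlow
  have hψ01 : ψ0 = 1 := class_eq_one D hM hLrM haux hq3 hr9 hr2 hrL (h.symm hM hLM hn) hcv0 hψ0 hLrE
    (fun ℓ hℓ hℓE => by
      have := Fact.mk hℓ
      have : NeZero ℓ := ⟨hℓ.ne_zero⟩
      refine class_eigen haux hM hLrM hq3 hn (hLqE hℓ hℓE) (h₁.symm hM hLrM hn) hcv0 hψ0 ?_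
      refine (heckeChar_comp_wHom hM hLrM (hLqE hℓ hℓE) χ₁).trans ?_
      refine MonoidHom.ext fun γ => ?_
      exact DFunLike.congr_fun (heχ ℓ hℓ hℓE) _) hlow
  have h1 := (hrel 1 (by rw [hψ1, one_pow]) (by rw [hψ01, one_pow])).1
  rw [mul_one, ← map_pow (resPar (dvd_lift (r := r))) χ 4, conjAut_res (dvd_lift (r := r)),
    wAut_res hM hLrM, ← map_pow (resPar (dvd_lift (r := r))), ← map_inv] at h1
  have : Fact D.q.Prime := ⟨D.prime⟩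
  have hrN' : ¬ r ∣ D.L * D.q := hrN
  have h1' : conjAut (goodLevel_Gamma0 (D.L * D.q)) 3 (conjC Φ s) (χ ^ 4) =
      (wAut hM hLM 3 (χ ^ 4) ^ D.q)⁻¹ :=
    Subtype.ext
      (eq_of_comp_incl hrN' (conjAut (goodLevel_Gamma0 (D.L * D.q)) 3 (conjC Φ s) (χ ^ 4)).2.2
      ((wAut hM hLM 3 (χ ^ 4) ^ D.q)⁻¹).2.2 (by rw [mul_right_comm]) (dvd_lift (r := r))
      (congrArg Subtype.val h1))
  rw [hχ', ← pow_mul, mul_assoc] at h1'
  exact mul_pow_eq_one_of_pow (hjp.mul_left (by decide : (8 * 4 : ℕ).Coprime 3)) _ _ h1'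

/-- **The Frobenius relation modulo three**, at any level prime to `r`. -/
theorem mazur_frob3 (hq3 : D.q ≠ 3) (hr9 : r % 9 = 2) (hr2 : r ≠ 2) (hrN : ¬ r ∣ D.N)
    (φ : parGroup (Gamma0 D.N) 3) (b : ℕ → ℕ) {E : ℕ} (hNE : D.N ∣ E) (hrE : r ∣ E)
    (heig : ∀ (ℓ : ℕ) (hℓ : ℓ.Prime), ¬ ℓ ∣ E → heckeChar D.N hℓ φ.1 = φ.1 ^ b ℓ)
    (hns : ∃ ℓ : ℕ, ℓ.Prime ∧ ¬ ℓ ∣ E ∧ (b ℓ : ZMod 3) ≠ (ℓ + 1 : ℕ))
    (hlow : ∀ ψ : Gamma0 D.L →* ℂˣ, ψ ^ 3 = 1 →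
      (∀ (ℓ : ℕ) (hℓ : ℓ.Prime), ¬ ℓ ∣ E → heckeChar D.L hℓ ψ = ψ ^ b ℓ) → ψ = 1)
    {A : ValuationSubring (AlgebraicClosure ℚ)} (hA : A.LiesOverPrime D.q)
    (hI : ∀ s ∈ A.inertiaSubgroupIn ℚ, galChar (goodLevel_Gamma0 D.N) 3 s φ = φ)
    {g : AlgebraicClosure ℚ ≃ₐ[ℚ] AlgebraicClosure ℚ} (hg : A.IsFrobeniusAt g D.q) :
    (∀ γ, trCor D φ.1 γ = 1) ∧ (∀ γ, trCorW D φ.1 γ = 1) ∧
      ∀ γ, (galChar (goodLevel_Gamma0 D.N) 3 g φ).1 γ *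
        φ.1 ((D.wCorr (L := 1) (one_dvd D.L) (Nat.coprime_one_right D.q)).fac γ ()) ^ D.q = 1 := by
  have : Fact (Nat.Prime 3) := ⟨Nat.prime_three⟩
  obtain ⟨hT, hT'⟩ := trCor_eq_one_of_eigen D φ b hNE heig hlow
  refine ⟨hT, hT', ?_⟩
  obtain ⟨ℓ0, hℓ0, hℓ0E, hne⟩ := hns
  obtain ⟨Φ, rfl⟩ := ES.exists_padicEquiv_compat hA
  obtain ⟨s, hs, hsF⟩ := exists_frobLift Φ hg
  have hgal : galChar (goodLevel_Gamma0 D.N) 3 g =
      conjAut (goodLevel_Gamma0 D.N) 3 (conjC Φ s) := galChar_eq _ 3 fun x => by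
    apply Φ.injective
    rw [map_conjC, hs]
  obtain ⟨M, hM0, hM, hLM, H⟩ := mazur_frob3_aux D hq3 hr9 hr2 hrN
    (show parGroup (Gamma0 (D.L * D.q)) 3 from φ) b hNE hrE heig hlow hℓ0 hℓ0E hne hT hT' Φ hI s hsF
  intro γ
  have h1 := congrArg (fun θ : parGroup (Gamma0 D.N) 3 => θ.1 γ) H
  rw [hgal]
  refine Eq.trans ?_ h1
  exact (congrArg (fun x : ℂˣ => (conjAut (goodLevel_Gamma0 (D.L * D.q)) 3 (conjC Φ s)
    (show parGroup (Gamma0 (D.L * D.q)) 3 from φ)).1 γ * x ^ D.q)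
    (wAut_apply_fac D hM hLM φ γ)).symm

end FermatAgent.BAD.AtP.Drop

end
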