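import Fermat.Agent.BAD.AtP.Drop.Descend
import Fermat.Agent.ES.Cong.Normalize
import Fermat.Agent.BAD.AL.SConj
import Fermat.Agent.BAD.SerPS

/-!
# A residual class at level `L r` is invariant under `Γ₀(L)`

If the `n`-th power of a form of level `L r` with multiplier is residually the product of a form of
level `L` and an `n`-th power, the multiplier is invariant on `Γ₀(L) ∩ Γ(r)`.
-/

set_option autoImplicit false

noncomputable section

open UpperHalfPlane CongruenceSubgroup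
open scoped MatrixGroups ModularForm Manifold

namespace FermatAgent.BAD.AtP.Drop

open FermatAgent.ES

variable {q : ℕ} {P : CPlace q} {M m : ℕ} [NeZero M]

theorem serLT_mul_left {s t : LaurentSeries ℂ} (ht : SerIn P.ring t) (hs : P.SerLT s) :
    P.SerLT (t * s) := mul_comm s t ▸ hs.mul_serIn ht

/-- A series with integral power and an attained maximum of its coefficients is integral. -/
theorem serIn_of_pow {c : PowerSeries ℂ} {n : ℕ} [NeZero n] {i : ℕ}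
    (hi0 : PowerSeries.coeff i c ≠ 0)
    (hmax : ∀ k, P.abv (PowerSeries.coeff k c) ≤ P.abv (PowerSeries.coeff i c))
    (h : SerIn P.ring (HahnSeries.ofPowerSeries ℤ ℂ c ^ n)) :
    SerIn P.ring (HahnSeries.ofPowerSeries ℤ ℂ c) := by
  set a := PowerSeries.coeff i c
  set cs := HahnSeries.ofPowerSeries ℤ ℂ c
  have hcs : ∀ k : ℤ, P.abv (cs.coeff k) ≤ P.abv a := fun k => by
    rcases le_or_gt 0 k with hk | hk
    · lift k to ℕ using hk
      rw [HahnSeries.ofPowerSeries_apply_coeff]; exact hmax k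
    · rw [show cs.coeff k = 0 by
        simp only [cs, HahnSeries.ofPowerSeries_apply]
        rw [HahnSeries.embDomain_of_notMem_range]
        rintro ⟨e, he⟩; simp at he; omega, map_zero]
      exact P.abv.nonneg _
  intro k
  rw [CPlace.mem_ring]
  refine (hcs k).trans (le_of_not_gt fun hgt => ?_)
  have hs : SerIn P.ring (HahnSeries.C a⁻¹ * cs) := fun k => by
    rw [HahnSeries.C_apply, HahnSeries.coeff_single_mul, sub_zero, CPlace.mem_ring, map_mul,
      map_inv₀]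
    exact inv_mul_le_one_of_le₀ (hcs k) (P.abv.nonneg _)
  have hu : P.UnitCoeff (HahnSeries.C a⁻¹ * cs) := ⟨i, by
    rw [HahnSeries.C_apply, HahnSeries.coeff_single_mul, sub_zero,
      show cs.coeff (i : ℤ) = a from HahnSeries.ofPowerSeries_apply_coeff _ _, map_mul, map_inv₀,
      inv_mul_cancel₀ ((map_ne_zero P.abv).2 hi0)]⟩
  have hun := CPlace.UnitCoeff.pow hs hu n
  rw [mul_pow, ← map_pow] at hun
  obtain ⟨e, he⟩ := hun
  rw [HahnSeries.C_apply, HahnSeries.coeff_single_mul, sub_zero, map_mul, map_pow, map_inv₀] at he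
  refine he.not_lt ((mul_le_of_le_one_right (pow_nonneg (inv_nonneg.2 (P.abv.nonneg _)) _)
    (h e)).trans_lt (pow_lt_one₀ (inv_nonneg.2 (P.abv.nonneg _))
      ((inv_lt_one₀ (P.abv.pos hi0)).2 hgt) (NeZero.ne n)))

theorem serLT_ofPowerSeries {c d : PowerSeries P.ring}
    (h : c.map P.res = d.map P.res) :
    P.SerLT (HahnSeries.ofPowerSeries ℤ ℂ (c.map P.ring.subtype) -
      HahnSeries.ofPowerSeries ℤ ℂ (d.map P.ring.subtype)) := fun i => by
  rw [← map_sub]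
  rcases le_or_gt 0 i with hi | hi
  · lift i to ℕ using hi
    rw [HahnSeries.ofPowerSeries_apply_coeff, map_sub, PowerSeries.coeff_map, PowerSeries.coeff_map]
    exact P.map_res_eq_iff.mp h i
  · rw [HahnSeries.ofPowerSeries_apply, HahnSeries.embDomain_of_notMem_range]
    · simp
    · rintro ⟨e, he⟩; simp at he; omega

theorem unitCoeff_ofPowerSeries {c : PowerSeries P.ring} (h : c.map P.res ≠ 0) :
    P.UnitCoeff (HahnSeries.ofPowerSeries ℤ ℂ (c.map P.ring.subtype)) := by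
  obtain ⟨i, hi⟩ := P.exists_abv_eq_one_of_map_res_ne h
  exact ⟨i, by rwa [HahnSeries.ofPowerSeries_apply_coeff, PowerSeries.coeff_map]⟩

variable (haux : AuxLevel M m)

include haux in
/-- Integrality and congruences pass to every cusp. -/
theorem serLT_act (hM : M.Coprime q) {f g : BRing M P.ring}
    (h : P.SerLT (infExp P f - infExp P g)) (γ : SL(2, ℤ)) :
    P.SerLT (lexp M γ (f : ℍ → ℂ) - lexp M γ (g : ℍ → ℂ)) := by
  rw [← map_sub] at h
  intro k
  have := Curve.Red.coeff_mem_maxBall P haux hM (f - g).2 h γ k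
  rwa [AddSubgroupClass.coe_sub, Curve.Red.lexp_sub f.2.1 g.2.1, CPlace.mem_maxBall] at this

variable {L r n : ℕ} [hr : Fact r.Prime] [NeZero n]

/-- For `r` prime to `L`, `Γ₀(L) ∩ Γ(r)` is contained in `Γ₀(L r)`. -/
theorem core_le_gamma0 (hrL : ¬ r ∣ L) : Gamma0 L ⊓ Gamma r ≤ Gamma0 (L * r) := fun γ hγ => by
  obtain ⟨h1, h2⟩ := Subgroup.mem_inf.1 hγ
  rw [Gamma0_mem, ZMod.intCast_zmod_eq_zero_iff_dvd] at h1
  have h3 := (Gamma_mem.1 h2).2.2.1
  rw [ZMod.intCast_zmod_eq_zero_iff_dvd] at h3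
  rw [Gamma0_mem, ZMod.intCast_zmod_eq_zero_iff_dvd, Nat.cast_mul]
  exact (Int.isCoprime_iff_gcd_eq_one.2 (by
    rw [Int.gcd_natCast_natCast]
    exact (hr.out.coprime_iff_not_dvd.2 hrL).symm)).mul_dvd h1 h3

/-- A slashed twist transforms under the conjugated subgroup by the conjugated multiplier. -/
private theorem isTwist_slash_conj {Γ Δ : Subgroup SL(2, ℤ)} {k : ℤ} {φ : Γ →* ℂˣ} {u : ℍ → ℂ}
    (hu : IsTwist Γ k φ u) (g : SL(2, ℤ)) (hconj : ∀ x : Δ, g * (x : SL(2, ℤ)) * g⁻¹ ∈ Γ)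
    {χ : Δ →* ℂˣ} (hχ : ∀ x, χ x = φ ⟨_, hconj x⟩) : IsTwist Δ k χ (u ∣[k] g) := by
  refine ⟨hu.mdiff.slash _ _, fun x => ?_, fun γ => by
    rw [← SlashAction.slash_mul]; exact hu.bdd _⟩
  refine ((SlashAction.slash_mul k g (x : SL(2, ℤ)) u).symm.trans
    (congrArg (fun y : SL(2, ℤ) => u ∣[k] y)
      (show g * (x : SL(2, ℤ)) = (g * (x : SL(2, ℤ)) * g⁻¹) * g by group))).trans ?_
  rw [SlashAction.slash_mul, hu.slash ⟨_, hconj x⟩, hχ]
  exact ModularForm.SL_smul_slash k g u ((φ ⟨_, hconj x⟩ : ℂ))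

/-- Reduction commutes with the change of width, which is injective. -/
private theorem expand_map_res_ne_zero {c : PowerSeries P.ring} (h : c.map P.res ≠ 0) :
    (PowerSeries.expand M (NeZero.ne M) c).map P.res ≠ 0 := by
  rw [PowerSeries.map_expand]; exact expand_ne_zero _ h

/-- A unit coefficient of a power series is at a nonnegative index. -/
private theorem exists_abv_coeff_eq_one {c : PowerSeries ℂ}
    (h : P.UnitCoeff (HahnSeries.ofPowerSeries ℤ ℂ c)) :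
    ∃ t, P.abv (PowerSeries.coeff t c) = 1 := by
  obtain ⟨t, ht⟩ := h
  rcases le_or_gt 0 t with h0 | h0
  · lift t to ℕ using h0
    exact ⟨t, by rwa [HahnSeries.ofPowerSeries_apply_coeff] at ht⟩
  · rw [HahnSeries.ofPowerSeries_apply, HahnSeries.embDomain_of_notMem_range, map_zero] at ht
    · exact absurd ht zero_ne_one
    · rintro ⟨z, hz⟩; simp at hz; omega

include haux in
/-- A form with an integral primitive expansion has one at every cusp. -/
private theorem serIn_unitCoeff_cusp (hM : M.Coprime q) {Γ : Subgroup SL(2, ℤ)}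
    (hΓ : Gamma M ≤ Γ) {j : ℕ} {D : ℍ → ℂ} (hD : IsTwist Γ ((2 * j : ℕ) : ℤ) 1 D)
    {c : PowerSeries P.ring} (hc : HasExp M D (c.map P.ring.subtype)) (hc0 : c.map P.res ≠ 0)
    {g : SL(2, ℤ)} {cg : PowerSeries ℂ} (hcg : HasExp M (D ∣[((2 * j : ℕ) : ℤ)] g) cg) :
    SerIn P.ring (HahnSeries.ofPowerSeries ℤ ℂ cg) ∧
      P.UnitCoeff (HahnSeries.ofPowerSeries ℤ ℂ cg) := by
  obtain ⟨hDR, hDe, -⟩ := form_div_mem_BRing haux hΓ (P := P) (n := 1) hM
    (pow_one (1 : Γ →* ℂˣ)) hD hc (fun i => by rw [PowerSeries.coeff_map]; exact Subtype.coe_prop _)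
  simp only [pow_one] at hDR hDe
  set Df : BRing M P.ring := ⟨_, hDR⟩
  have hA := P.goodRoot hM
  obtain ⟨k1, hk1⟩ := exists_leadUnit_auxSer haux hA 1
  obtain ⟨kg, hkg⟩ := exists_leadUnit_auxSer haux hA g
  set dg := HahnSeries.ofPowerSeries ℤ ℂ cg
  have hlD : lexp M g (Df : ℍ → ℂ) = dg * (auxSer haux g ^ j)⁻¹ :=
    lexp_eq (hasLExp_form_div haux hcg)
  have hin : SerIn P.ring (dg * (auxSer haux g ^ j)⁻¹) := hlD ▸ Df.2.2 g
  have hDu : P.UnitCoeff (infExp P Df) := by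
    rw [infExp_apply]
    show P.UnitCoeff (lexp M 1 fun τ => D τ / auxW haux τ ^ j)
    rw [hDe]
    exact CPlace.UnitCoeff.mul (s := HahnSeries.ofPowerSeries ℤ ℂ _) (SerIn.ofPowerSeries c)
      (hk1.pow j).inv.serIn (unitCoeff_ofPowerSeries hc0) (LeadUnit.unitCoeff (hk1.pow j).inv)
  have hu := unitCoeff_act P haux hM hDu g
  rw [infExp_apply, lexp_act, mul_one, hlD] at hu
  have hc' : dg * (auxSer haux g ^ j)⁻¹ * auxSer haux g ^ j = dg := by
    rw [mul_assoc, inv_mul_cancel₀ (pow_ne_zero _ hkg.ne_zero), mul_one]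
  exact hc' ▸ ⟨hin.mul (hkg.pow j).serIn,
    CPlace.UnitCoeff.mul hin (hkg.pow j).serIn hu (LeadUnit.unitCoeff (hkg.pow j))⟩

omit [NeZero n] in
include haux in
/-- A congruence `v ^ n ≡ F ^ e * D ^ n` at infinity holds at every cusp fixing `F`. -/
private theorem serLT_cusp (hM : M.Coprime q) {Γ Γ' : Subgroup SL(2, ℤ)} (hΓ : Gamma M ≤ Γ)
    (hΓ' : Gamma M ≤ Γ') {φ : Γ →* ℂˣ} (hφ : φ ^ n = 1) {i j f e : ℕ}
    (hwt : i * n = f * e + j * n) {v D F : ℍ → ℂ} (hv : IsTwist Γ ((2 * i : ℕ) : ℤ) φ v)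
    (hD : IsTwist Γ ((2 * j : ℕ) : ℤ) 1 D) (hF : IsTwist Γ' ((2 * f : ℕ) : ℤ) 1 F)
    {c d x : PowerSeries P.ring} (hc : HasExp M v (c.map P.ring.subtype))
    (hd : HasExp M D (d.map P.ring.subtype)) (hx : HasExp M F (x.map P.ring.subtype))
    (h : c.map P.res ^ n = x.map P.res ^ e * d.map P.res ^ n) {g : SL(2, ℤ)} (hg : g ∈ Γ')
    {cg dg : PowerSeries ℂ} (hcg : HasExp M (v ∣[((2 * i : ℕ) : ℤ)] g) cg)
    (hdg : HasExp M (D ∣[((2 * j : ℕ) : ℤ)] g) dg) :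
    P.SerLT (HahnSeries.ofPowerSeries ℤ ℂ cg ^ n -
      HahnSeries.ofPowerSeries ℤ ℂ (x.map P.ring.subtype) ^ e *
        HahnSeries.ofPowerSeries ℤ ℂ dg ^ n) := by
  have hint : ∀ y : PowerSeries P.ring, ∀ t, PowerSeries.coeff t (y.map P.ring.subtype) ∈ P.ring :=
    fun y t => by rw [PowerSeries.coeff_map]; exact Subtype.coe_prop _
  obtain ⟨hAR, hAe, -⟩ := form_div_mem_BRing haux hΓ (P := P) hM hφ hv hc (hint c)
  obtain ⟨hDR, hDe, -⟩ := form_div_mem_BRing haux hΓ (P := P) (n := 1) hM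
    (pow_one (1 : Γ →* ℂˣ)) hD hd (hint d)
  obtain ⟨hFR, hFe, -⟩ := form_div_mem_BRing haux hΓ' (P := P) (n := 1) hM
    (pow_one (1 : Γ' →* ℂˣ)) hF hx (hint x)
  simp only [pow_one] at hDR hDe hFR hFe
  set A : BRing M P.ring := ⟨_, hAR⟩
  set Df : BRing M P.ring := ⟨_, hDR⟩
  set Ff : BRing M P.ring := ⟨_, hFR⟩
  have hA := P.goodRoot hM
  obtain ⟨k1, hk1⟩ := exists_leadUnit_auxSer haux hA 1
  obtain ⟨kg, hkg⟩ := exists_leadUnit_auxSer haux hA g
  have hpw : ∀ (a b z : LaurentSeries ℂ) (γ : SL(2, ℤ)),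
      (a * (auxSer haux γ ^ i)⁻¹) ^ n -
          (b * (auxSer haux γ ^ f)⁻¹) ^ e * (z * (auxSer haux γ ^ j)⁻¹) ^ n =
        (a ^ n - b ^ e * z ^ n) * (auxSer haux γ ^ (i * n))⁻¹ := fun a b z γ => by
    simp only [mul_pow, inv_pow, ← pow_mul]
    rw [hwt, pow_add, mul_inv]
    ring
  have hinfA : infExp P A = _ := hAe
  have hsmall : P.SerLT (infExp P A - infExp P (Ff ^ e * Df ^ n)) := by
    rw [map_mul, map_pow, map_pow, hinfA, infExp_apply, infExp_apply]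
    show P.SerLT (_ - lexp M 1 (fun τ => F τ / auxW haux τ ^ f) ^ e *
      lexp M 1 (fun τ => D τ / auxW haux τ ^ j) ^ n)
    rw [hFe, hDe, hpw]
    refine CPlace.SerLT.mul_serIn ?_ (hk1.pow _).inv.serIn
    simpa only [map_mul, map_pow] using serLT_ofPowerSeries (P := P) (c := c ^ n)
      (d := x ^ e * d ^ n) (by simp only [map_mul, map_pow, h])
  have hlF : lexp M g (Ff : ℍ → ℂ) =
      HahnSeries.ofPowerSeries ℤ ℂ (x.map P.ring.subtype) * (auxSer haux g ^ f)⁻¹ :=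
    lexp_eq (hasLExp_form_div haux (by rw [hF.slash ⟨g, hg⟩]; simpa using hx))
  have hlD : lexp M g (Df : ℍ → ℂ) = _ := lexp_eq (hasLExp_form_div haux hdg)
  have hlA : lexp M g (A : ℍ → ℂ) =
      (HahnSeries.ofPowerSeries ℤ ℂ cg * (auxSer haux g ^ i)⁻¹) ^ n :=
    lexp_eq (((hasLExp_form_div haux hcg).pow n).congr_fun fun τ => by simp [A])
  have hlM : lexp M g ((Ff ^ e * Df ^ n : BRing M P.ring) : ℍ → ℂ) =
      lexp M g (Ff : ℍ → ℂ) ^ e * lexp M g (Df : ℍ → ℂ) ^ n :=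
    lexp_eq ((((hasLExp_lexp Ff.2.1 g).pow e).mul ((hasLExp_lexp Df.2.1 g).pow n)).congr_fun
      fun τ => by simp)
  have h2 := serLT_act haux hM hsmall g
  rw [hlA, hlM, hlF, hlD, hpw] at h2
  have h' := h2.mul_serIn (hkg.pow (i * n)).serIn
  rwa [mul_assoc, inv_mul_cancel₀ (pow_ne_zero _ hkg.ne_zero), mul_one] at h'

include haux in
/-- A series whose `n`-th power is congruent to an integral one is integral. -/
private theorem serIn_cusp (hP : P.HasCDVRs) (hM : M.Coprime q) (hn : n.Coprime q)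
    {Γ : Subgroup SL(2, ℤ)} (hΓ : Gamma M ≤ Γ) {φ : Γ →* ℂˣ} (hφ : φ ^ n = 1) {i : ℕ}
    {v : ℍ → ℂ} {g : SL(2, ℤ)}
    (hv : IsTwist Γ ((2 * i : ℕ) : ℤ) φ (v ∣[((2 * i : ℕ) : ℤ)] g)) (hv0 : v ≠ 0)
    {c : PowerSeries ℂ} (hc : HasExp M (v ∣[((2 * i : ℕ) : ℤ)] g) c) {y : LaurentSeries ℂ}
    (hy : SerIn P.ring y) (h : P.SerLT (HahnSeries.ofPowerSeries ℤ ℂ c ^ n - y)) :
    SerIn P.ring (HahnSeries.ofPowerSeries ℤ ℂ c) := by
  have hin : SerIn P.ring (HahnSeries.ofPowerSeries ℤ ℂ c ^ n) := fun t => by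
    rw [← sub_add_cancel (HahnSeries.ofPowerSeries ℤ ℂ c ^ n) y, HahnSeries.coeff_add,
      CPlace.mem_ring]
    exact P.add_le (h t).le (hy t)
  have hvg : v ∣[((2 * i : ℕ) : ℤ)] g ≠ 0 := ES.slash_ne_zero g hv0
  obtain ⟨i0, hi0, hmax⟩ := exists_max_coeff haux hΓ hP hM hn hφ hv hvg hc
  exact serIn_of_pow hi0 hmax hin

include haux in
/-- Twists whose expansions are congruent up to an `n`-th root of unity have equal multipliers. -/
private theorem mult_eq_of_congr (hP : P.HasCDVRs) (hM : M.Coprime q) (hn : n.Coprime q)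
    {Γ : Subgroup SL(2, ℤ)} (hΓ : Gamma M ≤ Γ) {φ χ : Γ →* ℂˣ} (hφ : φ ^ n = 1) (hχ : χ ^ n = 1)
    (hφp : IsParChar Γ φ) (hχp : IsParChar Γ χ) {i j : ℕ} {u v D D' : ℍ → ℂ}
    (hu : IsTwist Γ ((2 * i : ℕ) : ℤ) φ u) (hv : IsTwist Γ ((2 * i : ℕ) : ℤ) χ v)
    (hD : IsTwist Γ ((2 * j : ℕ) : ℤ) 1 D) (hD' : IsTwist Γ ((2 * j : ℕ) : ℤ) 1 D')
    {a b : PowerSeries ℂ} {c d : PowerSeries P.ring} (ha : HasExp M u a) (hb : HasExp M D' b)
    (hc : HasExp M v (c.map P.ring.subtype)) (hd : HasExp M D (d.map P.ring.subtype))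
    (hain : SerIn P.ring (HahnSeries.ofPowerSeries ℤ ℂ a))
    (hbin : SerIn P.ring (HahnSeries.ofPowerSeries ℤ ℂ b))
    (hbu : P.UnitCoeff (HahnSeries.ofPowerSeries ℤ ℂ b)) (hc0 : c.map P.res ≠ 0)
    {ω : ℂ} (hω : ω ^ n = 1)
    (h : P.SerLT (HahnSeries.C ω * (HahnSeries.ofPowerSeries ℤ ℂ a *
        HahnSeries.ofPowerSeries ℤ ℂ (d.map P.ring.subtype)) -
      HahnSeries.ofPowerSeries ℤ ℂ b * HahnSeries.ofPowerSeries ℤ ℂ (c.map P.ring.subtype))) :
    φ = χ := by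
  obtain ⟨n', hn'⟩ : ∃ n', n = n' + 1 := ⟨n - 1, by have := NeZero.ne n; omega⟩
  set W := i + j + i * n'
  have hV : IsTwist Γ ((2 * W : ℕ) : ℤ) (φ * χ ^ n') (ω • (u * D * v ^ n')) := by
    convert (((hu.mul hD).mul (hv.pow n')).smul ω) using 1
    · simp only [W]; push_cast; ring
    · exact MonoidHom.ext fun x => by simp
  have hG : IsTwist Γ ((2 * W : ℕ) : ℤ) 1 (D' * v ^ n) := by
    convert hD'.mul (hv.pow n) using 1
    · simp only [W, hn']; push_cast; ring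
    · exact MonoidHom.ext fun x => by simp [hχ]
  set ofS := HahnSeries.ofPowerSeries ℤ ℂ
  set cs := ofS (c.map P.ring.subtype)
  set ds := ofS (d.map P.ring.subtype)
  have hcin : SerIn P.ring cs := SerIn.ofPowerSeries c
  have hcoef : ∀ (s : PowerSeries ℂ) (t : ℕ), (ofS s).coeff (t : ℤ) = PowerSeries.coeff t s :=
    fun s t => HahnSeries.ofPowerSeries_apply_coeff s t
  have hC : HahnSeries.C ω = ofS (PowerSeries.C ω) := (HahnSeries.ofPowerSeries_C ω).symm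
  have hone : φ * χ ^ n' = 1 := by
    refine mult_eq_one haux hΓ hP hM hn
      (MonoidHom.ext fun x => by
        have hx1 := DFunLike.congr_fun hφ x
        have hx2 := DFunLike.congr_fun hχ x
        simp only [MonoidHom.pow_apply, MonoidHom.mul_apply, MonoidHom.one_apply] at hx1 hx2 ⊢
        rw [mul_pow, hx1, ← pow_mul, mul_comm n', pow_mul, hx2, one_pow, one_mul])
      (fun x hx => by rw [MonoidHom.mul_apply, MonoidHom.pow_apply, hφp x hx, hχp x hx, one_pow,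
        mul_one]) hV hG
      (c := PowerSeries.C ω * (a * d.map P.ring.subtype * c.map P.ring.subtype ^ n'))
      (d := b * c.map P.ring.subtype ^ n)
      (((ha.mul hd).mul (hc.pow n')).smul ω) (hb.mul (hc.pow n)) (fun t => ?_) (fun t => ?_)
      (fun t => ?_) (exists_abv_coeff_eq_one ?_)
    · rw [← hcoef, map_mul, ← hC, map_mul, map_mul, map_pow]
      exact (SerIn.C (P.abv_eq_one_of_pow_eq_one (NeZero.ne n) hω).le).mul
        ((hain.mul (SerIn.ofPowerSeries d)).mul (hcin.pow n')) t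
    · rw [← hcoef, map_mul, map_pow]
      exact hbin.mul (hcin.pow n) t
    · rw [← hcoef, ← hcoef, ← HahnSeries.coeff_sub, map_mul, ← hC, map_mul, map_mul, map_mul,
        map_pow, map_pow]
      have h' := h.mul_serIn (hcin.pow n') (t : ℤ)
      rwa [show (HahnSeries.C ω * (ofS a * ds) - ofS b * cs) * cs ^ n' =
        HahnSeries.C ω * (ofS a * ds * cs ^ n') - ofS b * cs ^ n by rw [hn']; ring] at h'
    · rw [map_mul, map_pow]
      exact CPlace.UnitCoeff.mul hbin (hcin.pow n) hbu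
        (CPlace.UnitCoeff.pow hcin (unitCoeff_ofPowerSeries hc0) n)
  refine MonoidHom.ext fun x => mul_right_cancel (b := χ x ^ n') ?_
  rw [← pow_succ', ← hn', ← MonoidHom.pow_apply χ n x, hχ]
  exact DFunLike.congr_fun hone x

include haux in
/-- **Invariance.** -/
theorem apply_conj_eq (hrL : ¬ r ∣ L) (hLM : L * r ∣ M) (hM : M.Coprime q) (hn : n.Coprime q)
    (hP : P.HasCDVRs) (ψ : parGroup (Gamma0 (L * r)) n) {i j f e : ℕ} (hwt : i * n = f * e + j * n)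
    {v1 D F : ℍ → ℂ}
    (hv1 : IsTwist (Gamma0 (L * r)) ((2 * i : ℕ) : ℤ) (ψ : Gamma0 (L * r) →* ℂˣ) v1)
    (hD : IsTwist (Gamma0 (L * r)) ((2 * j : ℕ) : ℤ) 1 D)
    (hF : IsTwist (Gamma0 L) ((2 * f : ℕ) : ℤ) 1 F)
    {cv1 cD cF : PowerSeries P.ring} (hcv1 : HasExp 1 v1 (cv1.map P.ring.subtype))
    (hcD : HasExp 1 D (cD.map P.ring.subtype)) (hcF : HasExp 1 F (cF.map P.ring.subtype))
    (hD0 : cD.map P.res ≠ 0) (hF0 : cF.map P.res ≠ 0)
    (hrel : cv1.map P.res ^ n = cF.map P.res ^ e * cD.map P.res ^ n)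
    {g : SL(2, ℤ)} (hg : g ∈ Gamma0 L) {k : SL(2, ℤ)} (hk : k ∈ Gamma0 L ⊓ Gamma r)
    (hgk : g * k * g⁻¹ ∈ Gamma0 (L * r)) :
    (ψ : Gamma0 (L * r) →* ℂˣ) ⟨g * k * g⁻¹, hgk⟩ =
      (ψ : Gamma0 (L * r) →* ℂˣ) ⟨k, core_le_gamma0 hrL hk⟩ := by
  classical
  set Γc := Gamma0 L ⊓ Gamma r
  have hle : Γc ≤ Gamma0 (L * r) := core_le_gamma0 hrL
  have hΓ : Gamma M ≤ Gamma0 (L * r) :=
    (gamma_le_of_dvd hLM).trans (goodLevel_Gamma0 _).gamma_le
  have hΓL : Gamma M ≤ Gamma0 L :=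
    (gamma_le_of_dvd ((dvd_mul_right L r).trans hLM)).trans (goodLevel_Gamma0 _).gamma_le
  have hΓc : Gamma M ≤ Γc :=
    le_inf hΓL (gamma_le_of_dvd ((dvd_mul_left r L).trans hLM))
  -- expansions of width `M`
  set E : PowerSeries P.ring → PowerSeries P.ring :=
    fun c => PowerSeries.expand M (NeZero.ne M) c
  have hwide : ∀ {f : ℍ → ℂ} {c : PowerSeries P.ring}, HasExp 1 f (c.map P.ring.subtype) →
      HasExp M f ((E c).map P.ring.subtype) := fun h => by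
    simp only [E, PowerSeries.map_expand]
    exact hasExp_widen (NeZero.ne M) h
  have hrelE : (E cv1).map P.res ^ n = (E cF).map P.res ^ e * (E cD).map P.res ^ n := by
    simp only [E, PowerSeries.map_expand, ← map_pow, ← map_mul, hrel]
  have hv0 : cv1.map P.res ≠ 0 := fun h0 => by
    rw [h0, zero_pow (NeZero.ne n), eq_comm, mul_eq_zero] at hrel
    exact hrel.elim (pow_ne_zero _ hF0) (pow_ne_zero _ hD0)
  have hv10 : v1 ≠ 0 := fun h0 => hv0 (by
    have e0 : cv1.map P.ring.subtype = 0 := (h0 ▸ hcv1).series_unique HasExp.zero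
    rw [show cv1 = 0 from PowerSeries.map_injective _ Subtype.val_injective (by rw [e0, map_zero]),
      map_zero])
  -- the congruence at the cusp `g`
  have hcg : HasExp M (v1 ∣[((2 * i : ℕ) : ℤ)] g) _ := hasExp_slash_twist hΓ ψ.2.2 hv1 g
  have hdg : HasExp M (D ∣[((2 * j : ℕ) : ℤ)] g) _ :=
    hasExp_slash_twist hΓ (φ := 1) (fun _ _ => rfl) hD g
  have h2 := serLT_cusp haux hM hΓ hΓL ψ.2.1 hwt hv1 hD hF (hwide hcv1) (hwide hcD) (hwide hcF)
    hrelE hg hcg hdg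
  obtain ⟨hdin, hdu⟩ :=
    serIn_unitCoeff_cusp haux hM hΓ hD (hwide hcD) (expand_map_res_ne_zero hD0) hdg
  -- the multipliers on the core
  have hconj : ∀ x : Γc, g * (x : SL(2, ℤ)) * g⁻¹ ∈ Gamma0 (L * r) := fun x =>
    hle (Subgroup.mem_inf.2 ⟨mul_mem (mul_mem hg (Subgroup.mem_inf.1 x.2).1) (inv_mem hg),
      (Gamma_normal r).conj_mem _ (Subgroup.mem_inf.1 x.2).2 g⟩)
  set φr : Γc →* ℂˣ := (ψ : Gamma0 (L * r) →* ℂˣ).comp (Subgroup.inclusion hle)
  let φg : Γc →* ℂˣ := MonoidHom.mk' (fun x => (ψ : Gamma0 (L * r) →* ℂˣ) ⟨_, hconj x⟩)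
    fun x y => by rw [← map_mul]; exact congrArg _ (Subtype.ext (by simp [mul_assoc]))
  have hparg : IsParChar Γc φg := fun x hx => ψ.2.2 _ (by
    show (((g * (x : SL(2, ℤ)) * g⁻¹ : SL(2, ℤ))) : Matrix (Fin 2) (Fin 2) ℤ).trace ^ 2 = 4
    rwa [Matrix.SpecialLinearGroup.coe_mul, Matrix.trace_mul_comm,
      ← Matrix.SpecialLinearGroup.coe_mul, ← mul_assoc, inv_mul_cancel, one_mul])
  have hφg : φg ^ n = 1 := MonoidHom.ext fun x => DFunLike.congr_fun ψ.2.1 _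
  have htw := isTwist_slash_conj hv1 g hconj (χ := φg) fun _ => rfl
  have hDg := isTwist_slash_conj hD g hconj (χ := 1) fun _ => rfl
  have hfin := SerIn.ofPowerSeries (E cF)
  have hcin := serIn_cusp haux hP hM hn hΓc hφg htw hv10 hcg
    ((hfin.pow e).mul (hdin.pow n)) h2
  -- the congruence up to a root of unity, and the conclusion
  have h1 := serLT_ofPowerSeries (P := P) (c := E cv1 ^ n) (d := E cF ^ e * E cD ^ n)
    (by simp only [map_mul, map_pow, hrelE])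
  simp only [map_mul, map_pow] at h1
  have hcsin := SerIn.ofPowerSeries (E cv1)
  have hdsin := SerIn.ofPowerSeries (E cD)
  obtain ⟨ω, hω, hωlt⟩ := exists_root_of_unity_congr hn (hcin.mul hdsin) (hdin.mul hcsin) (by
    convert (serLT_mul_left (hdsin.pow n) h2).sub (serLT_mul_left (hdin.pow n) h1) using 1
    ring)
  exact DFunLike.congr_fun (mult_eq_of_congr haux hP hM hn hΓc hφg
    (χ := φr) (MonoidHom.ext fun x => DFunLike.congr_fun ψ.2.1 _) hparg (fun x hx => ψ.2.2 _ hx)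
    htw ⟨hv1.mdiff, fun x => hv1.slash ⟨_, hle x.2⟩, hv1.bdd⟩
    ⟨hD.mdiff, fun x => hD.slash ⟨_, hle x.2⟩, hD.bdd⟩ hDg hcg hdg (hwide hcv1) (hwide hcD)
    hcin hdin hdu (expand_map_res_ne_zero hv0) hω hωlt) ⟨k, hk⟩

end FermatAgent.BAD.AtP.Drop

end
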