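import Fermat.Agent.LR.Lift
import Fermat.Agent.LR.Primes
import Fermat.Agent.Lifting.LowEigen
import Fermat.Agent.Lifting.Nonvanishing

/-!
# Levels of eigencharacters, without a prime `r ≡ 2 (mod 3)` in the level

A homomorphism to a field of characteristic `p` on which a Hecke operator away from the level has
an eigenvalue other than `ℓ + 1` vanishes at the elliptic elements of order three, so it is a
combination of homomorphisms of pairs of cusps and lifts to the integers. The lift survives in the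
localisation at the residual system, so the level is residual.
-/

set_option autoImplicit false

noncomputable section

open scoped MatrixGroups
open CongruenceSubgroup IsLocalRing WeierstrassCurve ModularGroup

namespace FermatAgent.BAD.AtP.Drop

open FermatAgent.HM FermatAgent.HM.Dual FermatAgent.Lifting

variable {p : ℕ} [hp : Fact p.Prime] (C : Coeff p)

/-- A residual eigenvector with a non-Eisenstein witness makes the integral localised module
nontrivial. -/
theorem nontrivial_trivLoc_of_residual {E L : ℕ} [NeZero L] (hLE : L ∣ E) (a : GoodIdx E → C.O)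
    (h2 : (2 : ResidueField C.O) ≠ 0) (i₀ : GoodIdx E)
    (hi₀ : residue C.O (a i₀) ≠ ((i₀.1.1 : ℕ) : ResidueField C.O) + 1)
    (φ : Additive (Gamma0 L) →+ ResidueField C.O) (hφ : φ ≠ 0)
    (heig : ∀ i : GoodIdx E,
      Period.heckeOp C.O L (ℓ := i.1.1) i.1.2 φ = a i • φ) :
    Nontrivial (HM.TrivLoc (M := L) (goodPr E) (HM.resIdeal a)) := by
  have hell : ∀ (g : SL(2, ℤ)) (hg : g⁻¹ * (S * T) * g ∈ Gamma0 L),
      φ (Additive.ofMul ⟨_, hg⟩) = 0 := fun g hg => by
    have : Fact (i₀.1.1 : ℕ).Prime := ⟨i₀.1.2⟩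
    have hl : ¬ (i₀.1.1 : ℕ) ∣ L := fun h => i₀.2 (h.trans hLE)
    have h := LR.homOp_hecke_elliptic (N := 1) (L := 1) h2 (one_dvd L) (Nat.coprime_one_right _)
      hl φ ⟨_, hg⟩ (LR.trace_conj_ST g)
    rw [HM.homOp_heckeCorr_eq (S := C.O) (Nat.coprime_one_right _) hl, heig,
      AddMonoidHom.smul_apply, Algebra.smul_def] at h
    exact (mul_eq_mul_right_iff.mp h).resolve_left hi₀
  obtain ⟨φ', hφ'⟩ := LR.exists_lift_of_elliptic (neg_one_mem_gamma0 L) (residue C.O)
    residue_surjective h2 φ hell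
  set θ := HM.trivHom C.O L (goodPr E) C.O
  set π := (residue C.O).toAddMonoidHom
  have key : ∀ (t : MvPolynomial (GoodIdx E) C.O)
      (z : HM.TrivH1 C.O L (goodPr E) C.O) (c : C.O), π.comp (θ z) = c • φ →
      π.comp (θ (t • z)) = (MvPolynomial.aeval a t * c) • φ := by
    intro t
    induction t using MvPolynomial.induction_on with
    | C r =>
      intro z c hz
      rw [HM.C_smul_eq, map_smul, MvPolynomial.aeval_C, mul_smul, ← hz, Algebra.algebraMap_self,
        RingHom.id_apply]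
      refine AddMonoidHom.ext fun γ => ?_
      simp only [AddMonoidHom.comp_apply, AddMonoidHom.smul_apply, Algebra.smul_def]
      exact map_mul (residue C.O) _ _
    | add t t' iht iht' =>
      intro z c hz
      rw [add_smul, map_add, AddMonoidHom.comp_add, iht z c hz, iht' z c hz, map_add, add_mul,
        add_smul]
    | mul_X t i iht =>
      intro z c hz
      have : Fact (goodPr E i).1.1.Prime := ⟨(goodPr E i).1.2⟩
      rw [mul_smul, iht _ (a i * c) ?_, map_mul, MvPolynomial.aeval_X, mul_assoc]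
      rw [HM.trivHom_X,
        HM.homOp_heckeCorr_eq (S := C.O) (goodPr E i).2 (fun h => i.2 (h.trans hLE)),
        ← Period.heckeOp_comp (R := C.O) (S := C.O) (goodPr E i).1.2, hz, map_smul]
      refine (congrArg (fun x => c • x) (heig i)).trans ?_
      rw [smul_smul, mul_comm]
  refine ⟨LocalizedModule.mk (θ.symm φ') 1, 0, fun h0 => ?_⟩
  rw [← LocalizedModule.zero_mk 1, LocalizedModule.mk_eq] at h0
  obtain ⟨s, hs⟩ := h0
  simp only [one_smul, smul_zero] at hs
  have h := key s.1 (θ.symm φ') 1 (by rw [LinearEquiv.apply_symm_apply, one_smul, hφ'])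
  rw [show (s.1 • θ.symm φ' : HM.TrivH1 C.O L (goodPr E) C.O) = 0 from hs, map_zero,
    AddMonoidHom.comp_zero, mul_one] at h
  have hu : IsUnit (MvPolynomial.aeval a s.1) := by
    by_contra hu
    exact s.2 (HM.mem_resIdeal.mpr hu)
  obtain ⟨u, hu⟩ := hu
  rw [← hu] at h
  exact hφ ((smul_eq_zero_iff_eq u).mp h.symm)

/-- **An eigencharacter of exponent `p` makes its level residual**, for any level. -/
theorem isResiduallyModularOfLevel_of_eigenChar {W : WeierstrassCurve ℤ} (hΔ : W.Δ ≠ 0)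
    (hp2 : p ≠ 2) (hirr : W.ModRepIsIrreducible p) {L : ℕ} [NeZero L]
    {ψ : Gamma0 L →* ℂˣ} (hψ : ψ ^ p = 1) (h1 : ψ ≠ 1) {E : ℕ} (hE : E ≠ 0) (b : ℕ → ℕ)
    (heig : ∀ (ℓ : ℕ) (hℓ : ℓ.Prime), ¬ ℓ ∣ E → ¬ ℓ ∣ L → ES.heckeChar L hℓ ψ = ψ ^ b ℓ)
    (hb : ∀ ℓ : ℕ, ℓ.Prime → ¬ ℓ ∣ E → ℓ ≠ p → W.IsGoodPrimeFor ℓ → ¬ ℓ ∣ L →
      (b ℓ : ZMod p) = (W.apOfModel ℓ : ZMod p)) :
    W.IsResiduallyModularOfLevel p L := by
  classical
  obtain ⟨C⟩ := nonempty_coeff (p := p) hp2
  set E' : ℕ := E * W.Δ.natAbs * L * p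
  have hE' : E' ≠ 0 := mul_ne_zero (mul_ne_zero (mul_ne_zero hE (Int.natAbs_ne_zero.2 hΔ))
    (NeZero.ne L)) hp.out.ne_zero
  have hnd : ∀ i : GoodIdx E', ¬ i.1.1 ∣ E ∧ ¬ i.1.1 ∣ L ∧ i.1.1 ≠ p ∧
      W.IsGoodPrimeFor i.1.1 := fun i => by
    refine ⟨fun h => i.2 (h.mul_right _ |>.mul_right _ |>.mul_right _),
      fun h => i.2 ((h.mul_left _).mul_right _), fun h => i.2 (h ▸ dvd_mul_left _ _),
      fun h => i.2 (((Int.natCast_dvd.1 h).mul_left _).mul_right _ |>.mul_right _)⟩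
  let val : GoodIdx E' → ℤ := fun i => W.apOfModel i.1.1
  have : (W.map (Int.castRingHom ℚ)).IsElliptic := ⟨by
    rw [WeierstrassCurve.map_Δ, isUnit_iff_ne_zero]
    simpa using hΔ⟩
  obtain ⟨l, hl, hlS, hl1, -, hlp, hne⟩ := LR.exists_prime_one_mod_ne
    (W := W) (E := W.map (Int.castRingHom ℚ)) ⟨1, one_smul _ _⟩ hp.out hp2 hirr L E'.primeFactors
  have hlE : ¬ l ∣ E' := fun h => hlS (Nat.mem_primeFactors.2 ⟨hl, h, hE'⟩)
  let i₀ : GoodIdx E' := ⟨⟨l, hl⟩, hlE⟩
  have := charP_residue C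
  set cast := ZMod.castHom (dvd_refl p) (ResidueField C.O)
  have hres : residue C.O ((val i₀ : ℤ) : C.O) ≠ ((i₀.1.1 : ℕ) : ResidueField C.O) + 1 :=
    fun h => hne (cast.injective (by
      rw [map_intCast, map_add, map_natCast, map_one]
      rw [map_intCast] at h
      exact h))
  have h2 : (2 : ResidueField C.O) ≠ 0 := fun h => hp2 (by
    have h' : ((2 : ℕ) : ResidueField C.O) = 0 := by exact_mod_cast h
    rw [CharP.cast_eq_zero_iff (ResidueField C.O) p] at h'
    exact (Nat.prime_dvd_prime_iff_eq hp.out Nat.prime_two).1 h')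
  obtain ⟨e, he, hop⟩ := exists_additive_of_char hψ h1
  have hnt := nontrivial_trivLoc_of_residual C (dvd_mul_of_dvd_left (dvd_mul_left L _) p)
    (fun i : GoodIdx E' => (val i : C.O)) h2 i₀ hres (cast.toAddMonoidHom.comp e)
    (fun h => he (AddMonoidHom.ext fun γ =>
      cast.injective ((DFunLike.congr_fun h γ).trans (map_zero _).symm))) fun j => by
      obtain ⟨hjE, hjL, hjp, hjg⟩ := hnd j
      rw [Period.heckeOp_comp ℤ, hop _ j.1.2 _ hjL (heig _ j.1.2 hjE hjL)]
      refine AddMonoidHom.ext fun γ => ?_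
      show cast (((b j.1.1 : ℕ) : ℤ) • e γ) = (val j : C.O) • cast (e γ)
      rw [zsmul_eq_mul, map_mul, Algebra.smul_def]
      congr 1
      rw [show (((b j.1.1 : ℕ) : ℤ) : ZMod p) = (W.apOfModel j.1.1 : ZMod p) by
        rw [Int.cast_natCast]; exact hb _ j.1.2 hjE hjp hjg hjL, map_intCast]
      exact (map_intCast (residue C.O) _).symm
  have hwit : MvPolynomial.X i₀ - MvPolynomial.C ((((goodPr E' i₀).1.1 : ℕ) : C.O) + 1) ∉
      HM.resIdeal fun i => (val i : C.O) := fun h => hres (by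
    rw [HM.X_sub_C_mem_resIdeal, ← residue_eq_zero_iff, map_sub, sub_eq_zero, map_add, map_natCast,
      map_one] at h
    exact h)
  obtain ⟨f, 𝔪', hf, hmax, hmem, hc⟩ := exists_congr_eigenform_of_nontrivial (goodPr E')
    (natCast_mem_maximalIdeal (p := p)) val i₀ hl1 hwit hnt
  refine Assembly.isResiduallyModularOfLevel_iff.mpr ⟨f, 𝔪', Assembly.congr_of_cofinite hΔ hp.out
    hf hmax hmem E'.primeFactors fun ℓ hℓ hℓS hg hℓL _ => ?_⟩
  exact hc ⟨⟨ℓ, hℓ⟩, fun hd => hℓS (Nat.mem_primeFactors.mpr ⟨hℓ, hd, hE'⟩)⟩ hℓL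

end FermatAgent.BAD.AtP.Drop

end
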