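import Fermat.Agent.BAD.AtP.Drop.Frob
import Fermat.Agent.BAD.AtP.Drop.Lift
import Fermat.Agent.BAD.AtP.Gal.Reduce
import Fermat.Agent.Lifting.MazurAux
import Mathlib.NumberTheory.LSeries.PrimesInAP

/-!
# Removing two from the level modulo three, and `p` from the level

Mazur's principle at `q = 2`, `p = 3`, through an auxiliary prime `r ≡ 2 (mod 9)`: if two could
not be removed, Frobenius at two would force `2 ≡ 1 (mod 3)`. With this, the residue characteristic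
is removed from the level whenever the torsion is finite at `p`.
-/

set_option autoImplicit false

noncomputable section

open WeierstrassCurve CongruenceSubgroup ModularFormClass
open scoped MatrixGroups
open FermatAgent.ES (GQ)

namespace FermatAgent.BAD.AtP

open Assembly (ZC Congr UnramAt)
open FermatAgent.Lifting (residGL exists_torsion_basis residGL_val)

/-- The torsion in matrices spans everything. -/
theorem span_residGL_of_irreducible {W : WeierstrassCurve ℤ} {p : ℕ} [Fact p.Prime] (hΔ : W.Δ ≠ 0)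
    (hp2 : p ≠ 2) (hirr : W.ModRepIsIrreducible p) :
    Submodule.span (ZMod p) (Set.range fun x =>
      (residGL (p := p) hΔ x : Matrix (Fin 2) (Fin 2) (ZMod p))) = ⊤ := by
  classical
  obtain ⟨t, ht⟩ := exists_torsion_basis (p := p) hΔ
  obtain ⟨b, hb⟩ := PSEMI.exists_basis_span_torRep hΔ hp2 hirr
  rw [eq_top_iff]
  intro Y _
  rw [← LinearMap.toMatrix_toLin t t Y,
    ← (LinearMap.toMatrixAlgEquiv b).symm_apply_apply (Matrix.toLin t t Y)]
  have hY : LinearMap.toMatrixAlgEquiv b (Matrix.toLin t t Y) ∈ Submodule.span (ZMod p)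
      (Set.range fun σ => LinearMap.toMatrixAlgEquiv b ((Assembly.torRep W hΔ p).ρ σ)) :=
    hb ▸ Submodule.mem_top
  generalize LinearMap.toMatrixAlgEquiv b (Matrix.toLin t t Y) = F at hY ⊢
  induction hY using Submodule.span_induction with
  | mem f hf =>
    obtain ⟨σ, rfl⟩ := hf
    refine Submodule.subset_span ⟨σ, ?_⟩
    rw [AlgEquiv.symm_apply_apply]
    exact (residGL_val hΔ σ).trans (ht σ).symm
  | zero =>
    rw [show LinearMap.toMatrix t t ((LinearMap.toMatrixAlgEquiv b).symm 0) = 0 from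
      (congrArg _ (map_zero _)).trans (map_zero (LinearMap.toMatrix t t))]
    exact zero_mem _
  | add f g _ _ hf hg =>
    rw [show LinearMap.toMatrix t t ((LinearMap.toMatrixAlgEquiv b).symm (f + g)) =
        LinearMap.toMatrix t t ((LinearMap.toMatrixAlgEquiv b).symm f) +
          LinearMap.toMatrix t t ((LinearMap.toMatrixAlgEquiv b).symm g) from
      (congrArg _ (map_add _ f g)).trans (map_add (LinearMap.toMatrix t t) _ _)]
    exact add_mem hf hg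
  | smul c f _ hf =>
    rw [show LinearMap.toMatrix t t ((LinearMap.toMatrixAlgEquiv b).symm (c • f)) =
        c • LinearMap.toMatrix t t ((LinearMap.toMatrixAlgEquiv b).symm f) from
      (congrArg _ (map_smul _ c f)).trans (map_smul (LinearMap.toMatrix t t) c _)]
    exact Submodule.smul_mem _ _ hf

/-- **Two leaves the level modulo three.** -/
theorem drop2 {W : WeierstrassCurve ℤ} (hΔ : W.Δ ≠ 0) (hirr : W.ModRepIsIrreducible 3) :
    ∀ L : ℕ, ¬ 2 ∣ L → ¬ 3 ∣ L → W.IsResiduallyModularOfLevel 3 (L * 3) →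
      W.IsResiduallyModularOfLevel 3 (L * 2) → W.IsResiduallyModularOfLevel 3 L := by
  classical
  intro L hL2 hL3 hmod3 hmod2
  have : Fact (Nat.Prime 3) := ⟨Nat.prime_three⟩
  by_contra hnot
  have hL0 : L ≠ 0 := fun h => hL2 (h ▸ dvd_zero 2)
  have : NeZero L := ⟨hL0⟩
  have : NeZero (L * 3) := ⟨mul_ne_zero hL0 (by norm_num)⟩
  obtain ⟨g₃, 𝔪₃, hcg₃⟩ := Assembly.isResiduallyModularOfLevel_iff.1 hmod3
  have hu : UnramAt W 3 2 := (hcg₃.galoisCongr hΔ Nat.prime_three).unramified hirr 2 Nat.prime_two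
    (fun h => hL2 ((Nat.prime_two.dvd_mul.1 h).resolve_right (by decide))) (by norm_num)
  obtain ⟨D, hDq, rfl⟩ := HM.ALData.exists_data Nat.prime_two hL2 hL0
  have hDN : D.N = D.L * 2 := by rw [HM.ALData.N, hDq]
  obtain ⟨g, 𝔪, hcg⟩ : ∃ g 𝔪, Congr W 3 D.N g 𝔪 :=
    hDN ▸ Assembly.isResiduallyModularOfLevel_iff.1 hmod2
  obtain ⟨r, hrgt, hr, hr9⟩ := Nat.forall_exists_prime_gt_and_eq_mod (q := 9)
    (a := ((2 : ℕ) : ZMod 9)) ((ZMod.unitOfCoprime 2 (by decide)).isUnit) (3 * D.N)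
  have hr9' : r % 9 = 2 := by
    have := (ZMod.natCast_eq_natCast_iff' r 2 9).1 hr9
    omega
  have := Fact.mk hr
  have hN0 := Nat.pos_of_ne_zero (NeZero.ne D.N)
  have hrN : ¬ r ∣ D.N := fun h => by have := Nat.le_of_dvd hN0 h; omega
  set E := D.N * 3 * W.Δ.natAbs * r
  have hE0 : E ≠ 0 := mul_ne_zero (mul_ne_zero (mul_ne_zero (NeZero.ne D.N) (by norm_num))
    (Int.natAbs_ne_zero.2 hΔ)) hr.ne_zero
  have hq3 : D.q ≠ 3 := by omega
  have hNE : D.N ∣ E := ((dvd_mul_right D.N 3).mul_right _).mul_right _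
  obtain ⟨ℓ₀, hℓ₀, hℓ₀E, -, hℓ₀a⟩ := exists_nonEis (p := 3) hΔ (by norm_num) hirr hE0
  have key : (D.q : ZMod 3) = 1 := Lifting.cast_eq_one_of_mazurRel hΔ (by norm_num) hirr
    (span_residGL_of_irreducible hΔ (by norm_num) hirr) D hcg hq3 (hDq ▸ hu) hnot hE0 hNE
    (((dvd_mul_left 3 _).mul_right _).mul_right _) ((dvd_mul_left _ _).mul_right _)
    ⟨ℓ₀, hℓ₀, hℓ₀E, by rw [Nat.cast_add, Nat.cast_one]; exact hℓ₀a⟩
    fun φ b heig hns hlow _ hA hI _ hgF => (Drop.mazur_frob3 D hq3 hr9' (by omega) hrN φ b hNE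
      (dvd_mul_left r _) heig hns hlow hA hI hgF).2.2
  rw [hDq] at key
  have h21 : ((2 : ℕ) : ZMod 3) - 1 = 0 := sub_eq_zero.2 key
  norm_num at h21

/-- **The level without the residue characteristic.** -/
theorem isResiduallyModularOfLevel_div {W : WeierstrassCurve ℤ} {p : ℕ} [hp : Fact p.Prime]
    (hΔ : W.Δ ≠ 0) (hp2 : p ≠ 2)
    (hirr : W.ModRepIsIrreducible p)
    (hsemi : (p : ℤ) ∣ W.Δ → ¬ (p : ℤ) ∣ W.c₄ ∧ p ∣ padicValInt p W.Δ)
    {M : ℕ} (hM : 0 < M) (hpM : p ∣ M) (hp2M : ¬ p ^ 2 ∣ M)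
    (hmod : W.IsResiduallyModularOfLevel p M) :
    W.IsResiduallyModularOfLevel p (M / p) := by
  classical
  have : NeZero M := ⟨hM.ne'⟩
  obtain ⟨M', rfl⟩ := hpM
  rw [Nat.mul_div_cancel_left _ hp.out.pos]
  have hM' : M' ≠ 0 := fun h => hM.ne' (by rw [h, mul_zero])
  obtain ⟨f, 𝔪, hf⟩ := hmod
  obtain ⟨N, g, hNM, hN0, hnew, hval⟩ := HM.exists_newform hf.1
  have : NeZero N := ⟨hN0.ne'⟩
  have hcg : Congr W p N g 𝔪 := Assembly.congr_of_cofinite hΔ hp.out hnew.1 hf.2.1 hf.2.2.1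
    (p * M').primeFactors fun ℓ hℓ hℓS hgd _ hℓp => by
      have hℓM : ¬ ℓ ∣ p * M' := fun hd => hℓS (Nat.mem_primeFactors.2 ⟨hℓ, hd, hM.ne'⟩)
      obtain ⟨a, ha, hm⟩ := hf.2.2.2 ℓ hℓ hgd hℓM hℓp
      exact ⟨a, by rw [ha, hval ℓ hℓ hℓM], hm⟩
  by_cases hpN : p ∣ N
  swap
  · exact Assembly.residual_of_dvd
      ((hp.out.coprime_iff_not_dvd.2 hpN).symm.dvd_of_dvd_mul_left hNM) hM' ⟨g, 𝔪, hcg⟩
  obtain ⟨L, rfl⟩ : ∃ L, N = L * p := ⟨N / p, (Nat.div_mul_cancel hpN).symm⟩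
  have hp2N : ¬ p ^ 2 ∣ L * p := fun hd => hp2M (hd.trans hNM)
  have hLp : L.Coprime p := (hp.out.coprime_iff_not_dvd.2 fun hd =>
    hp2N (by rw [pow_two]; exact Nat.mul_dvd_mul_right hd p)).symm
  have hLM : L ∣ M' := by
    rw [mul_comm p] at hNM
    exact Nat.dvd_of_mul_dvd_mul_right hp.out.pos hNM
  have : NeZero L := ⟨fun h => hM' (Nat.eq_zero_of_zero_dvd (h ▸ hLM))⟩
  refine Assembly.residual_of_dvd hLM hM' ?_
  have hgp : qCoeff g p ^ 2 = 1 := (HM.newformBadPrimeCoeff _ g hnew p hp.out hpN).1 hp2N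
  by_cases h3 : p = 3 ∧ ¬ 2 ∣ L
  swap
  · exact isResiduallyModularOfLevel_of_congr hΔ hp2 hirr hsemi hLp
      (fun h => by_contra fun h2 => h3 ⟨h, h2⟩) hcg hgp
  obtain ⟨rfl, hL2⟩ := h3
  obtain ⟨h, hh, hcoef⟩ := Assembly.exists_add_primes hcg.1 {2} fun t ht => by
    rw [Finset.mem_singleton] at ht
    subst ht
    exact ⟨Nat.prime_two, fun hd => hL2 ((Nat.prime_two.dvd_mul.1 hd).resolve_right (by decide))⟩
  have hdvd : L * 3 ∣ L * 2 * 3 := Nat.mul_dvd_mul_right (dvd_mul_right L 2) 3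
  have e : L * 3 * ∏ t ∈ ({2} : Finset ℕ), t = L * 2 * 3 := by rw [Finset.prod_singleton]; ring
  revert h
  rw [e]
  intro h hh hcoef
  have : NeZero (L * 2) := ⟨mul_ne_zero (NeZero.ne L) two_ne_zero⟩
  have : NeZero (L * 2 * 3) := ⟨mul_ne_zero (NeZero.ne _) (by norm_num)⟩
  have hch : Congr W 3 (L * 2 * 3) h 𝔪 := ⟨hh, hcg.2.1, hcg.2.2.1, fun ℓ hℓ hgd hℓM hℓp => by
    obtain ⟨a, ha, hm⟩ := hcg.2.2.2 ℓ hℓ hgd (fun hd => hℓM (hd.trans hdvd)) hℓp
    have hℓ2 : ℓ ∉ ({2} : Finset ℕ) := fun h2 => hℓM (by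
      rw [Finset.mem_singleton.1 h2]; exact (dvd_mul_left 2 L).mul_right 3)
    exact ⟨a, by rw [ha, hcoef ℓ hℓ hℓ2], hm⟩⟩
  refine drop2 hΔ hirr L hL2
    (fun hd => Nat.Prime.coprime_iff_not_dvd Nat.prime_three |>.1 hLp.symm hd) ⟨g, 𝔪, hcg⟩ ?_
  refine isResiduallyModularOfLevel_of_congr hΔ hp2 hirr hsemi
    (Nat.Coprime.mul_left hLp (by decide)) (fun _ => dvd_mul_left 2 L) hch ?_
  rw [hcoef 3 Nat.prime_three (by decide)]
  exact hgp

/-- The level without the residue characteristic, peu ramifié case. -/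
theorem level_div_of_peu
    (W : WeierstrassCurve ℤ) (hΔ : W.Δ ≠ 0)
    {p : ℕ} (hp : p.Prime) (hp2 : p ≠ 2)
    (hsemi : (p : ℤ) ∣ W.Δ → ¬ (p : ℤ) ∣ W.c₄)
    (hirr : W.ModRepIsIrreducible p)
    (hfin : (W.map (Int.castRingHom ℚ)).IsPeuRamifieeAt p p)
    {M : ℕ} (hM : 0 < M) (hpM : p ∣ M) (hp2M : ¬ p ^ 2 ∣ M)
    (hmod : W.IsResiduallyModularOfLevel p M) :
    W.IsResiduallyModularOfLevel p (M / p) := by
  have := Fact.mk hp
  exact isResiduallyModularOfLevel_div hΔ hp2 hirr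
    (fun hd => ⟨hsemi hd, dvd_padicValInt_of_isPeuRamifieeAt hfin⟩) hM hpM hp2M hmod

/-- The level without the residue characteristic, good reduction. -/
theorem level_div_of_good
    (W : WeierstrassCurve ℤ) (hΔ : W.Δ ≠ 0)
    {p : ℕ} (hp : p.Prime) (hp2 : p ≠ 2)
    (hgood : W.IsGoodPrimeFor p)
    (hirr : W.ModRepIsIrreducible p)
    {M : ℕ} (hM : 0 < M) (hpM : p ∣ M) (hp2M : ¬ p ^ 2 ∣ M)
    (hmod : W.IsResiduallyModularOfLevel p M) :
    W.IsResiduallyModularOfLevel p (M / p) := by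
  have := Fact.mk hp
  exact isResiduallyModularOfLevel_div hΔ hp2 hirr (fun hd => absurd hd hgood) hM hpM hp2M hmod

end FermatAgent.BAD.AtP

end
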